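/-
GATE-E (S59) / block E8 / node E8.SQ / M2 NODE3 (helper38), file 6: **which chart contains the
centre of a place** — generic (Mathlib + `GL/Frame/FrameInst.icRing`).

`W` a valuation ring of `F`, `ρ : W →+* Fb` a reduction, `O` a valuation ring of `Fb`.

* `map_icRing_mem` : `ρ(R) ⊆ O`, `ρ(t) ∈ O` ⟹ `ρ(icRing R {t}) ⊆ O` (integrality passes to the
  reduction, `O` is integrally closed);
* `inv_mem_of_map_not_mem`, `map_inv_mem_nonunits` : if `ρ(t) ∉ O` then `t` is a unit of `W` and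
  `ρ(t⁻¹) ∈ 𝔪_O` — the centre lies on the chart `icRing R {t⁻¹}` and `t⁻¹` vanishes there.
-/
import Fermat.Agent.GL.Frame.FrameInst

set_option autoImplicit false
set_option linter.unusedSectionVars false

noncomputable section

namespace Fermat.Agent.GE8.SQ.Node3

open Polynomial
open Fermat.Agent.GL.Frame.Inst

section Generic

variable {R F Fb : Type*} [CommRing R] [Field F] [Algebra R F] [Field Fb]

/-- `icRing R {t} ⊆ W` as soon as `R ⊆ W` and `t ∈ W`. -/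
theorem icRing_singleton_le (W : ValuationSubring F) (hR : ∀ r : R, algebraMap R F r ∈ W)
    {t : F} (ht : t ∈ W) {z : F} (hz : z ∈ icRing R {t}) : z ∈ W :=
  mem_valuationSubring_of_mem_icRing R {t} W hR
    (fun x hx => by rw [Set.mem_singleton_iff.1 hx]; exact ht) hz

/-- **integrality passes to the reduction**: `ρ(R) ⊆ O` and `ρ(t) ∈ O` ⟹ `ρ(icRing R {t}) ⊆ O`. -/
theorem map_icRing_mem (W : ValuationSubring F) (ρ : W →+* Fb) (O : ValuationSubring Fb)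
    (hR : ∀ r : R, algebraMap R F r ∈ W) (hρR : ∀ r : R, ρ ⟨algebraMap R F r, hR r⟩ ∈ O)
    {t : F} (ht : t ∈ W) (hρt : ρ ⟨t, ht⟩ ∈ O) {z : F} (hz : z ∈ icRing R {t}) :
    ρ ⟨z, icRing_singleton_le W hR ht hz⟩ ∈ O := by
  -- `R[t] ⊆ W` and `ρ(R[t]) ⊆ O`
  have hadj : ∀ a ∈ Algebra.adjoin R ({t} : Set F), ∃ ha : a ∈ W, ρ ⟨a, ha⟩ ∈ O := by
    intro a ha
    induction ha using Algebra.adjoin_induction with
    | mem x hx =>
      have hxt : x = t := Set.mem_singleton_iff.1 hx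
      subst hxt
      exact ⟨ht, hρt⟩
    | algebraMap r => exact ⟨hR r, hρR r⟩
    | add x y _ _ hx hy =>
      obtain ⟨hx', hx''⟩ := hx
      obtain ⟨hy', hy''⟩ := hy
      refine ⟨W.add_mem _ _ hx' hy', ?_⟩
      have : (⟨x + y, W.add_mem _ _ hx' hy'⟩ : W) = ⟨x, hx'⟩ + ⟨y, hy'⟩ := rfl
      rw [this, map_add]
      exact O.add_mem _ _ hx'' hy''
    | mul x y _ _ hx hy =>
      obtain ⟨hx', hx''⟩ := hx
      obtain ⟨hy', hy''⟩ := hy
      refine ⟨W.mul_mem _ _ hx' hy', ?_⟩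
      have : (⟨x * y, W.mul_mem _ _ hx' hy'⟩ : W) = ⟨x, hx'⟩ * ⟨y, hy'⟩ := rfl
      rw [this, map_mul]
      exact O.mul_mem _ _ hx'' hy''
  have hzW := icRing_singleton_le W hR ht hz
  rw [mem_icRing] at hz
  obtain ⟨p, hpm, hp0⟩ := hz
  let inclW : Algebra.adjoin R ({t} : Set F) →+* W :=
    ((Algebra.adjoin R ({t} : Set F)).val.toRingHom).codRestrict W.toSubring
      (fun a => (hadj a.1 a.2).1)
  let θ : Algebra.adjoin R ({t} : Set F) →+* O :=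
    (ρ.comp inclW).codRestrict O.toSubring (fun a => (hadj a.1 a.2).2)
  have hint : IsIntegral O (ρ ⟨z, hzW⟩) := by
    refine ⟨p.map θ, hpm.map θ, ?_⟩
    rw [eval₂_map]
    have hcomp : (algebraMap O Fb).comp θ = ρ.comp inclW := RingHom.ext fun a => rfl
    rw [hcomp, ← hom_eval₂]
    have h0 : eval₂ inclW (⟨z, hzW⟩ : W) p = 0 := by
      apply Subtype.ext
      show W.subtype (eval₂ inclW (⟨z, hzW⟩ : W) p) = 0
      rw [hom_eval₂]
      exact hp0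
    rw [h0, map_zero]
  have hic : IsIntegrallyClosed O := inferInstance
  obtain ⟨y, hy⟩ := (IsIntegrallyClosed.isIntegral_iff (R := O) (K := Fb)).1 hint
  rw [← hy]
  exact y.2

/-- if `ρ t ∉ O` then `t` is a unit of `W`. -/
theorem inv_mem_of_map_not_mem (W : ValuationSubring F) (ρ : W →+* Fb)
    (hρ : ∀ x : W, ρ x = 0 ↔ (x : F) ∈ W.nonunits) (O : ValuationSubring Fb)
    {t : F} (ht : t ∈ W) (hρt : ρ ⟨t, ht⟩ ∉ O) : t⁻¹ ∈ W := by
  have h0 : ρ ⟨t, ht⟩ ≠ 0 := fun h => hρt (h ▸ O.zero_mem)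
  have h1 : t ∉ W.nonunits := fun h => h0 ((hρ ⟨t, ht⟩).2 h)
  have h2 : ¬ W.valuation t < 1 := fun h => h1 ((ValuationSubring.mem_nonunits_iff W).2 h)
  have h3 : W.valuation t = 1 :=
    le_antisymm ((W.valuation_le_one_iff t).2 ht) (not_lt.1 h2)
  refine (W.valuation_le_one_iff _).1 ?_
  rw [map_inv₀, h3, inv_one]

/-- if `ρ t ∉ O` then `ρ (t⁻¹)` lies in the maximal ideal of `O`. -/
theorem map_inv_mem_nonunits (W : ValuationSubring F) (ρ : W →+* Fb) (O : ValuationSubring Fb)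
    {t : F} (ht : t ∈ W) (ht' : t⁻¹ ∈ W) (ht0 : t ≠ 0) (hρt : ρ ⟨t, ht⟩ ∉ O) :
    ρ ⟨t⁻¹, ht'⟩ ∈ O.nonunits := by
  have hmul : ρ ⟨t, ht⟩ * ρ ⟨t⁻¹, ht'⟩ = 1 := by
    rw [← map_mul]
    have : (⟨t, ht⟩ * ⟨t⁻¹, ht'⟩ : W) = 1 := Subtype.ext (mul_inv_cancel₀ ht0)
    rw [this, map_one]
  have hinv : ρ ⟨t⁻¹, ht'⟩ = (ρ ⟨t, ht⟩)⁻¹ := eq_inv_of_mul_eq_one_right hmul
  rw [hinv, ValuationSubring.mem_nonunits_iff, map_inv₀]
  have h1 : ¬ O.valuation (ρ ⟨t, ht⟩) ≤ 1 := fun h => hρt ((O.valuation_le_one_iff _).1 h)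
  have h2 : 1 < O.valuation (ρ ⟨t, ht⟩) := not_le.1 h1
  exact inv_lt_one_of_one_lt₀ h2

end Generic

end Fermat.Agent.GE8.SQ.Node3
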