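/-
GATE-E (S59) / block E8 / node E8.SQ / M2 NODE3 (helper38), file 1: **the abstract specialisation
step, in the form "a reduction map on a valuation ring + a place of the residue field"**.

`B ⊂ F` a noetherian integrally closed chart ring with fraction field `F`, `W ⊇ B` a valuation ring
of `F` (a vertical valuation), `ρ : W →+* Fb` a ring map whose kernel is the maximal ideal of `W`
(the reduction to the residue function field), `Q` a place of `Fb / k` such that `ρ(B) ⊆ O_Q`.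
The centre of `Q` on `B` is `𝔫 = {b | ρ b ∈ 𝔪_Q}`.  If the local ring `B_𝔫` is factorial, `u` is a
unit of `W`, and `u` has `m`-divisible order at every height-one prime of `B` through `𝔫` (in the
`hord` form of `GL/Frame/KummerDatum`), then `m ∣ ord_Q (ρ u)`.

No Dedekind coordinate ring, no surjectivity of the reduction, any number of vertical components
through `𝔫`: the same lemma serves the three components `C₁ C₂ C₃` of the fibre of `X₀(M' q²)`.
-/
import Fermat.Agent.GL.Frame.KummerDatum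
import Fermat.Prelude.Def_AlgebraicCurve_DivisorClassGroup

set_option autoImplicit false
set_option linter.unusedSectionVars false

noncomputable section

namespace Fermat.Agent.GE8.SQ.Node3

open AlgebraicCurve IsLocalRing
open Fermat.Agent.GL.Frame.HeightOne Fermat.Agent.GL.Frame.Kummer

section Spec

variable {F : Type*} [Field F] {B : Subring F} [IsFractionRing B F] [IsNoetherianRing B]
  [IsIntegrallyClosed B]
variable {k Fb : Type*} [Field k] [Field Fb] [Algebra k Fb]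

/-- the restriction of the reduction `ρ : W → Fb` to the chart ring, with values in the valuation
ring of the place `Q`. -/
def chartToPlace (W : ValuationSubring F) (hBW : ∀ b : B, (b : F) ∈ W) (ρ : W →+* Fb)
    (Q : Place k Fb) (hQ : ∀ b : B, ρ ⟨(b : F), hBW b⟩ ∈ Q.toValuationSubring) :
    B →+* Q.toValuationSubring :=
  (ρ.comp (Subring.inclusion (fun x hx => hBW ⟨x, hx⟩ : B ≤ W.toSubring))).codRestrict
    Q.toValuationSubring.toSubring (fun b => hQ b)

theorem coe_chartToPlace (W : ValuationSubring F) (hBW : ∀ b : B, (b : F) ∈ W) (ρ : W →+* Fb)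
    (Q : Place k Fb) (hQ : ∀ b : B, ρ ⟨(b : F), hBW b⟩ ∈ Q.toValuationSubring) (b : B) :
    ((chartToPlace W hBW ρ Q hQ b : Q.toValuationSubring) : Fb) = ρ ⟨(b : F), hBW b⟩ := rfl

/-- **the centre of the place `Q` on the chart `B`** (through the reduction `ρ`). -/
def centre (W : ValuationSubring F) (hBW : ∀ b : B, (b : F) ∈ W) (ρ : W →+* Fb)
    (Q : Place k Fb) (hQ : ∀ b : B, ρ ⟨(b : F), hBW b⟩ ∈ Q.toValuationSubring) : Ideal B :=
  (maximalIdeal Q.toValuationSubring).comap (chartToPlace W hBW ρ Q hQ)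

instance centre_isPrime (W : ValuationSubring F) (hBW : ∀ b : B, (b : F) ∈ W) (ρ : W →+* Fb)
    (Q : Place k Fb) (hQ : ∀ b : B, ρ ⟨(b : F), hBW b⟩ ∈ Q.toValuationSubring) :
    (centre W hBW ρ Q hQ).IsPrime :=
  Ideal.comap_isPrime _ _

theorem ord_eq_zero_of_not_mem_centre (W : ValuationSubring F) (hBW : ∀ b : B, (b : F) ∈ W)
    (ρ : W →+* Fb) (Q : Place k Fb)
    (hQ : ∀ b : B, ρ ⟨(b : F), hBW b⟩ ∈ Q.toValuationSubring) {b : B}
    (hb : b ∉ centre W hBW ρ Q hQ) : Q.ord (ρ ⟨(b : F), hBW b⟩) = 0 := by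
  have hu : IsUnit (chartToPlace W hBW ρ Q hQ b) := by
    by_contra hnu
    exact hb hnu
  obtain ⟨v, hv⟩ := hu
  have := Q.ord_coe_unit v
  rw [hv, coe_chartToPlace] at this
  exact this

theorem ne_zero_of_not_mem_centre (W : ValuationSubring F) (hBW : ∀ b : B, (b : F) ∈ W)
    (ρ : W →+* Fb) (Q : Place k Fb)
    (hQ : ∀ b : B, ρ ⟨(b : F), hBW b⟩ ∈ Q.toValuationSubring) {b : B}
    (hb : b ∉ centre W hBW ρ Q hQ) : ρ ⟨(b : F), hBW b⟩ ≠ 0 := by
  intro h0
  apply hb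
  show chartToPlace W hBW ρ Q hQ b ∈ maximalIdeal Q.toValuationSubring
  have : chartToPlace W hBW ρ Q hQ b = 0 := Subtype.ext (by rw [coe_chartToPlace, h0]; rfl)
  rw [this]
  exact Ideal.zero_mem _

/-- **the abstract specialisation step**, at any prime `𝔪` of the chart containing the centre of
`Q` (e.g. a maximal ideal over it: no maximality of the centre is needed). -/
theorem dvd_ord_of_ufd_above (W : ValuationSubring F) (hBW : ∀ b : B, (b : F) ∈ W)
    (ρ : W →+* Fb) (hρ : ∀ x : W, ρ x = 0 ↔ (x : F) ∈ W.nonunits)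
    (Q : Place k Fb) (hQ : ∀ b : B, ρ ⟨(b : F), hBW b⟩ ∈ Q.toValuationSubring)
    (𝔪 : Ideal B) [𝔪.IsPrime] (h𝔪 : centre W hBW ρ Q hQ ≤ 𝔪)
    [UniqueFactorizationMonoid (Localization.AtPrime 𝔪)]
    {m : ℕ} (hm : m ≠ 0) (u : F) (hu0 : u ≠ 0) (hu : u ∈ W) (hu' : u⁻¹ ∈ W)
    (hord : ∀ 𝔭 : HtOne B, 𝔭.1 ≤ 𝔪 → ∃ z : F, z ≠ 0 ∧ UnitAt 𝔭 (u * z ^ m)) :
    (m : ℤ) ∣ Q.ord (ρ ⟨u, hu⟩) := by
  obtain ⟨g, c, s, hc', hs', hgc⟩ := exists_kummer_datum_of_ufd 𝔪
    (Localization.AtPrime 𝔪) m u hu0 hord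
  have hc : c ∉ centre W hBW ρ Q hQ := fun h => hc' (h𝔪 h)
  have hs : s ∉ centre W hBW ρ Q hQ := fun h => hs' (h𝔪 h)
  have hcF : algebraMap B F c = (c : F) := rfl
  have hsF : algebraMap B F s = (s : F) := rfl
  rw [hcF, hsF] at hgc
  -- `ρ c`, `ρ s` are nonzero of order `0`
  have hρc := ne_zero_of_not_mem_centre W hBW ρ Q hQ hc
  have hρs := ne_zero_of_not_mem_centre W hBW ρ Q hQ hs
  have hoc := ord_eq_zero_of_not_mem_centre W hBW ρ Q hQ hc
  have hos := ord_eq_zero_of_not_mem_centre W hBW ρ Q hQ hs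
  -- `c`, `s` are units of `W`
  have hcW : (c : F)⁻¹ ∈ W := by
    by_contra hcon
    have : (c : F) ∈ W.nonunits := by
      rw [ValuationSubring.mem_nonunits_iff_exists_mem_maximalIdeal]
      refine ⟨hBW c, ?_⟩
      rw [IsLocalRing.mem_maximalIdeal, mem_nonunits_iff]
      intro hcu
      obtain ⟨v, hv⟩ := hcu
      apply hcon
      have h1 : (c : F) * ((v⁻¹ : Wˣ) : W) = 1 := by
        have := congrArg (fun x : W => (x : F)) (Units.mul_inv v)
        simp only [hv] at this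
        exact this
      have : (c : F)⁻¹ = ((v⁻¹ : Wˣ) : W) := (eq_inv_of_mul_eq_one_right h1).symm ▸ rfl
      rw [this]
      exact Subtype.mem _
    exact hρc ((hρ _).2 this)
  have hs0 : (s : F) ≠ 0 := by
    intro h0
    apply hρs
    have : (⟨(s : F), hBW s⟩ : W) = 0 := Subtype.ext h0
    rw [this, map_zero]
  have hc0 : (c : F) ≠ 0 := by
    intro h0
    apply hρc
    have : (⟨(c : F), hBW c⟩ : W) = 0 := Subtype.ext h0
    rw [this, map_zero]
  have hsW : (s : F)⁻¹ ∈ W := by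
    by_contra hcon
    have : (s : F) ∈ W.nonunits := by
      rw [ValuationSubring.mem_nonunits_iff_exists_mem_maximalIdeal]
      refine ⟨hBW s, ?_⟩
      rw [IsLocalRing.mem_maximalIdeal, mem_nonunits_iff]
      intro hsu
      obtain ⟨v, hv⟩ := hsu
      apply hcon
      have h1 : (s : F) * ((v⁻¹ : Wˣ) : W) = 1 := by
        have := congrArg (fun x : W => (x : F)) (Units.mul_inv v)
        simp only [hv] at this
        exact this
      have : (s : F)⁻¹ = ((v⁻¹ : Wˣ) : W) := (eq_inv_of_mul_eq_one_right h1).symm ▸ rfl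
      rw [this]
      exact Subtype.mem _
    exact hρs ((hρ _).2 this)
  -- `g ∈ W`
  have hgm : g ^ m = (c : F) * (u⁻¹ * (s : F)⁻¹) := by
    rw [← hgc]
    field_simp
  have hg0 : g ≠ 0 := by
    intro h0
    rw [h0, zero_pow hm, zero_mul, zero_mul] at hgc
    exact hc0 hgc.symm
  have hgmW : g ^ m ∈ W := by
    rw [hgm]
    exact W.mul_mem _ _ (hBW c) (W.mul_mem _ _ hu' hsW)
  have hg : g ∈ W := by
    by_contra hcon
    have hi : g⁻¹ ∈ W := (W.mem_or_inv_mem g).resolve_left hcon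
    obtain ⟨n, rfl⟩ := Nat.exists_eq_succ_of_ne_zero hm
    have e : g = g ^ (n + 1) * g⁻¹ ^ n := by
      rw [pow_succ, inv_pow, mul_assoc, mul_comm g, ← mul_assoc,
        mul_inv_cancel₀ (pow_ne_zero n hg0), one_mul]
    apply hcon
    rw [e]
    exact W.mul_mem _ _ hgmW (W.pow_mem hi n)
  -- apply `ρ`
  have hW : (⟨g, hg⟩ : W) ^ m * ⟨u, hu⟩ * ⟨(s : F), hBW s⟩ = ⟨(c : F), hBW c⟩ :=
    Subtype.ext hgc
  have h1 := congrArg ρ hW
  rw [map_mul, map_mul, map_pow] at h1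
  -- `ρ g ≠ 0`, `ρ u ≠ 0`
  have hρu : ρ ⟨u, hu⟩ ≠ 0 := by
    intro h0
    have h2 := (hρ _).1 h0
    rw [ValuationSubring.mem_nonunits_iff_exists_mem_maximalIdeal] at h2
    obtain ⟨hu2, hmem⟩ := h2
    rw [IsLocalRing.mem_maximalIdeal, mem_nonunits_iff] at hmem
    apply hmem
    refine ⟨⟨⟨u, hu⟩, ⟨u⁻¹, hu'⟩, Subtype.ext (mul_inv_cancel₀ hu0),
      Subtype.ext (inv_mul_cancel₀ hu0)⟩, rfl⟩
  have hρg : ρ ⟨g, hg⟩ ≠ 0 := by
    intro h0
    rw [h0, zero_pow hm, zero_mul, zero_mul] at h1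
    exact hρc h1.symm
  have h2 := congrArg Q.ord h1
  rw [Place.ord_mul _ (mul_ne_zero (pow_ne_zero m hρg) hρu) hρs,
    Place.ord_mul _ (pow_ne_zero m hρg) hρu, hos, hoc, ← zpow_natCast, Place.ord_zpow] at h2
  exact ⟨-Q.ord (ρ ⟨g, hg⟩), by linarith⟩

/-- **the abstract specialisation step** at the centre itself. -/
theorem dvd_ord_of_ufd_centre (W : ValuationSubring F) (hBW : ∀ b : B, (b : F) ∈ W)
    (ρ : W →+* Fb) (hρ : ∀ x : W, ρ x = 0 ↔ (x : F) ∈ W.nonunits)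
    (Q : Place k Fb) (hQ : ∀ b : B, ρ ⟨(b : F), hBW b⟩ ∈ Q.toValuationSubring)
    [UniqueFactorizationMonoid (Localization.AtPrime (centre W hBW ρ Q hQ))]
    {m : ℕ} (hm : m ≠ 0) (u : F) (hu0 : u ≠ 0) (hu : u ∈ W) (hu' : u⁻¹ ∈ W)
    (hord : ∀ 𝔭 : HtOne B, 𝔭.1 ≤ centre W hBW ρ Q hQ →
      ∃ z : F, z ≠ 0 ∧ UnitAt 𝔭 (u * z ^ m)) :
    (m : ℤ) ∣ Q.ord (ρ ⟨u, hu⟩) :=
  dvd_ord_of_ufd_above W hBW ρ hρ Q hQ _ le_rfl hm u hu0 hu hu' hord

/-- the centre is a proper ideal, so it lies under a maximal ideal of the chart. -/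
theorem exists_maximal_above_centre (W : ValuationSubring F) (hBW : ∀ b : B, (b : F) ∈ W)
    (ρ : W →+* Fb) (Q : Place k Fb)
    (hQ : ∀ b : B, ρ ⟨(b : F), hBW b⟩ ∈ Q.toValuationSubring) :
    ∃ 𝔪 : Ideal B, 𝔪.IsMaximal ∧ centre W hBW ρ Q hQ ≤ 𝔪 :=
  Ideal.exists_le_maximal _ (centre_isPrime W hBW ρ Q hQ).ne_top

theorem mem_centre_iff (W : ValuationSubring F) (hBW : ∀ b : B, (b : F) ∈ W) (ρ : W →+* Fb)
    (Q : Place k Fb) (hQ : ∀ b : B, ρ ⟨(b : F), hBW b⟩ ∈ Q.toValuationSubring) (b : B) :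
    b ∈ centre W hBW ρ Q hQ ↔
      chartToPlace W hBW ρ Q hQ b ∈ maximalIdeal Q.toValuationSubring := Iff.rfl

/-- an element of the chart killed by the reduction lies in the centre. -/
theorem mem_centre_of_map_eq_zero (W : ValuationSubring F) (hBW : ∀ b : B, (b : F) ∈ W)
    (ρ : W →+* Fb) (Q : Place k Fb)
    (hQ : ∀ b : B, ρ ⟨(b : F), hBW b⟩ ∈ Q.toValuationSubring) {b : B}
    (hb : ρ ⟨(b : F), hBW b⟩ = 0) : b ∈ centre W hBW ρ Q hQ := by
  by_contra h
  exact ne_zero_of_not_mem_centre W hBW ρ Q hQ h hb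

end Spec

end Fermat.Agent.GE8.SQ.Node3
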