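/-
GATE-E (S59) / block E8 / node E8.SQ / M2 NODE3 (helper38), file 7: **the chart step at level
`M' q q`, uniformly in the component** (`K₀`-level, any reduction `ρ` of `W_i`, any place).

`F₀ = K₀(X₀(M' q q))`, `W = W3 A hQ i` one of the three vertical valuation rings, `ρ : W →+* Fb` a
ring map with kernel `𝔪_W` sending `R₀` into `O_Q`, `Q` any place of `Fb / k`.  For `u₀ ∈ F₀ˣ`, unit
of the three `W_i`, with `mapK0Bar u₀` an `m`-divisible unit of `ℚ̄(X₀(M' q q))`: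

  `m ∣ ord_Q (ρ u₀)`.

The two factoriality statements (`O_𝔫` factorial at the closed points of the special fibre of `Bj`,
resp. at the cuspidal ones of `Bji`) are BINDERS here (`hufdj`, `hufdji`); they are theorems in
`Node3/UfdJ.lean`, `Node3/UfdJi.lean`.

Proof: if `ρ j ∈ O_Q` the centre of `Q` lies on the `j`-frame (`Places.map_icRing_mem`), otherwise on
the `1/j`-frame and `1/j` vanishes there; `q` lies in the centre; pick a maximal ideal over the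
centre; `hord` at the vertical primes is `u₀` being a 3-unit, at the horizontal ones helper11's
`HorizHord.hord_horizontal`; conclude by `SpecAbs.dvd_ord_of_ufd_above`.
-/
import Fermat.Agent.GE8.SQ.Node3.SpecAbs
import Fermat.Agent.GE8.SQ.Node3.Places
import Fermat.Agent.GL.Final.H5HalljiK0
import Fermat.Agent.GL.Frame.HorizHord

set_option autoImplicit false
set_option linter.unusedSectionVars false
set_option linter.unusedVariables false
set_option linter.style.haveILetI false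

noncomputable section

namespace Fermat.Agent.GE8.SQ.Node3

open AlgebraicCurve ModularCurve Polynomial IntermediateField
open Fermat.Agent.GL.ChartChange Fermat.Agent.GL.Gate Fermat.Agent.GL.GaussAt
open Fermat.Agent.GK.AL Fermat.Agent.GL.AL Fermat.Agent.GK.MultiVal
open Fermat.Agent.GL.Val.GaussK0 Fermat.Agent.GL.Val.SecondK0 Fermat.Agent.GL.Val.SecondK0Hall
open Fermat.Agent.GL.Val.ThirdK0 Fermat.Agent.GL.Val.OrthK0 Fermat.Agent.GL.Val.L1eAsmK0
open Fermat.Agent.GK.Val.GaussBase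
open Fermat.Agent.GL.Frame.Inst Fermat.Agent.GL.Frame.HeightOne Fermat.Agent.GL.LocGlue
open Fermat.Agent.GL.Frame.InstVal Fermat.Agent.GL.Frame.Kummer
open Fermat.Agent.GL.Frame.HorizDiv Fermat.Agent.GL.Frame.HorizHord
open Fermat.Agent.GL.KrullHeightOne
open Fermat.Agent.GL.Final.H5Hallji
open Fermat.Agent.GJ.KumGroup
open Fermat.Agent.Common_helper32

variable (A : ValuationSubring Qb) {q : ℕ} (M' : ℕ) [NeZero M'] [NeZero q]

local notation "F₀" => modularFunctionFieldFullC (K0 A) (M' * q * q)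
local notation "j₀" => jK0 A (M' * q * q)
local notation "Bj" => chartRing (R0 A) (jK0 A (M' * q * q))
local notation "Bji" => chartRing (R0 A) (jK0 A (M' * q * q))⁻¹

set_option synthInstance.maxHeartbeats 400000 in
set_option maxHeartbeats 3200000 in
/-- **the chart step at level `M' q q`**, any component, any reduction, any place. -/
theorem dvd_ord_of_W3 (hq : q.Prime) (hqM : ¬ q ∣ M') (hA : A.LiesOverPrime q)
    (hQ : HallDvd (q ^ 2) (M' * q * q))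
    (hufdj : ∀ [IsFractionRing Bj F₀] [IsNoetherianRing Bj] [IsIntegrallyClosed Bj]
      (𝔫 : Ideal Bj) [𝔫.IsPrime], 𝔫.IsMaximal → baseB j₀ (q0 A q) ∈ 𝔫 →
      UniqueFactorizationMonoid (Localization.AtPrime 𝔫))
    (hufdji : ∀ [IsFractionRing Bji F₀] [IsNoetherianRing Bji] [IsIntegrallyClosed Bji]
      (𝔫 : Ideal Bji) [𝔫.IsPrime], 𝔫.IsMaximal →
      (isChartRing_Bji A M').toRingHom (q0 A q) ∈ 𝔫 → (isChartRing_Bji A M').gen ∈ 𝔫 →
      UniqueFactorizationMonoid (Localization.AtPrime 𝔫))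
    {k Fb : Type*} [Field k] [Field Fb] [Algebra k Fb]
    (i : Fin 3) (ρ : W3 A hQ i →+* Fb)
    (hρ : ∀ x : W3 A hQ i, ρ x = 0 ↔ (x : F₀) ∈ (W3 A hQ i).nonunits)
    (Q : Place k Fb)
    (hρR : ∀ (a : R0 A) (ha : algebraMap (R0 A) F₀ a ∈ W3 A hQ i),
      ρ ⟨algebraMap (R0 A) F₀ a, ha⟩ ∈ Q.toValuationSubring)
    {m : ℕ} (hm : m ≠ 0) (u₀ : F₀ˣ)
    (hu : ∀ i', (u₀ : F₀) ∈ W3 A hQ i' ∧ (u₀ : F₀)⁻¹ ∈ W3 A hQ i')
    (hK : Units.map (mapK0Bar A (M' * q * q) : _ →* FK (M' * q * q)) u₀ ∈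
      pDivUnits Kb (FK (M' * q * q)) m) :
    (m : ℤ) ∣ Q.ord (ρ ⟨(u₀ : F₀), (hu i).1⟩) := by
  haveI : Fact q.Prime := ⟨hq⟩
  have hN : M' * q * q = M' * q ^ 2 := by ring
  have hq2 : q ^ 2 * 1 ∣ M' * q * q := by rw [mul_one, hN]; exact dvd_mul_left _ _
  haveI : NeZero (q ^ 2 * 1) := ⟨by rw [mul_one]; exact pow_ne_zero 2 hq.ne_zero⟩
  have hWover : ∀ i, ∀ a : K0 A, algebraMap (K0 A) F₀ a ∈ W3 A hQ i ↔ a ∈ R0 A := fun i =>
    (isRamified_W3_R0 A hq hN hqM hA hQ (one_dvd M') hq2 (one_dvd _) i).mem_iff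
  have hR : ∀ a : R0 A, algebraMap (R0 A) F₀ a ∈ W3 A hQ i := fun a => (hWover i a).2 a.2
  have hjW : j₀ ∈ W3 A hQ i := (isGaussAt_W3 A hQ i).1
  have hqF : algebraMap (R0 A) F₀ (q0 A q) = ((q : ℕ) : F₀) :=
    Fermat.Agent.GL.Final.H5UnifK0.algebraMap_q0 A (M' * q * q)
  obtain ⟨⟨_, _, _, hqB, f, hf1, hf2⟩, ⟨_, _, _, hqB', f', hf1', hf2'⟩⟩ :=
    exists_two_frames_K0 A M' hq hqM hA hQ
  -- `q` is a nonunit of `W`
  have hqW : algebraMap (R0 A) F₀ (q0 A q) ∈ (W3 A hQ i).nonunits := by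
    have h1 : baseB j₀ (q0 A q) ∈ (f i).1 :=
      (mem_vertFinset hqB (f i)).1 ((hf2 (f i)).2 ⟨i, rfl⟩)
    have h2 := (algebraMap_mem_nonunits_V1_iff (F := F₀) (f i) (baseB j₀ (q0 A q))).2 h1
    rw [hf1 i] at h2
    exact h2
  by_cases hj : ρ ⟨j₀, hjW⟩ ∈ Q.toValuationSubring
  · -- the centre lies on the `j`-frame
    have hBW : ∀ b : Bj, (b : F₀) ∈ W3 A hQ i := fun b => icRing_singleton_le _ hR hjW b.2
    have hQB : ∀ b : Bj, ρ ⟨(b : F₀), hBW b⟩ ∈ Q.toValuationSubring := fun b =>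
      map_icRing_mem _ ρ _ hR (fun a => hρR a (hR a)) hjW hj b.2
    obtain ⟨𝔪, h𝔪, hle⟩ := exists_maximal_above_centre (W3 A hQ i) hBW ρ Q hQB
    haveI := h𝔪.isPrime
    have hq𝔪 : baseB j₀ (q0 A q) ∈ 𝔪 :=
      hle (mem_centre_of_map_eq_zero (W3 A hQ i) hBW ρ Q hQB ((hρ _).2 hqW))
    haveI := hufdj 𝔪 h𝔪 hq𝔪
    refine dvd_ord_of_ufd_above (W3 A hQ i) hBW ρ hρ Q hQB 𝔪 hle hm (u₀ : F₀) u₀.ne_zero
      (hu i).1 (hu i).2 ?_
    intro 𝔭 _
    by_cases hq𝔭 : baseB j₀ (q0 A q) ∈ 𝔭.1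
    · obtain ⟨i', rfl⟩ := (hf2 𝔭).1 ((mem_vertFinset hqB 𝔭).2 hq𝔭)
      refine hord_of_unitAt m ?_
      unfold UnitAt
      rw [hf1 i']
      exact hu i'
    · refine hord_horizontal A (M' * q * q) m u₀ hK 𝔭 ?_
      refine algebraMap_K0_mem_of_baseRing A hq hA (algebraMap (K0 A) F₀) (V1 F₀ 𝔭) ?_ ?_
      · intro c hc
        exact algebraMap_mem_V1 𝔭 (baseB j₀ (⟨c, hc⟩ : R0 A))
      · have h1 := inv_algebraMap_mem_V1 (F := F₀) 𝔭 hq𝔭
        have e : algebraMap Bj F₀ (baseB j₀ (q0 A q)) = ((q : ℕ) : F₀) := hqF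
        rw [e] at h1
        exact h1
  · -- the centre lies on the `1/j`-frame, at a cusp
    have hjW' : j₀⁻¹ ∈ W3 A hQ i := inv_mem_of_map_not_mem _ ρ hρ _ hjW hj
    have hj0 : j₀ ≠ 0 := by
      intro h0
      apply hj
      have : (⟨j₀, hjW⟩ : W3 A hQ i) = 0 := Subtype.ext h0
      rw [this, map_zero]
      exact Q.toValuationSubring.zero_mem
    have hji : ρ ⟨j₀⁻¹, hjW'⟩ ∈ Q.toValuationSubring.nonunits :=
      map_inv_mem_nonunits _ ρ _ hjW hjW' hj0 hj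
    have hji' : ρ ⟨j₀⁻¹, hjW'⟩ ∈ Q.toValuationSubring :=
      (Q.toValuationSubring.valuation_le_one_iff _).1
        (le_of_lt ((ValuationSubring.mem_nonunits_iff _).1 hji))
    have hBW : ∀ b : Bji, (b : F₀) ∈ W3 A hQ i := fun b => icRing_singleton_le _ hR hjW' b.2
    have hQB : ∀ b : Bji, ρ ⟨(b : F₀), hBW b⟩ ∈ Q.toValuationSubring := fun b =>
      map_icRing_mem _ ρ _ hR (fun a => hρR a (hR a)) hjW' hji' b.2
    obtain ⟨𝔪, h𝔪, hle⟩ := exists_maximal_above_centre (W3 A hQ i) hBW ρ Q hQB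
    haveI := h𝔪.isPrime
    have hq𝔪 : (isChartRing_Bji A M').toRingHom (q0 A q) ∈ 𝔪 :=
      hle (mem_centre_of_map_eq_zero (W3 A hQ i) hBW ρ Q hQB ((hρ _).2 hqW))
    have hgen : (isChartRing_Bji A M').gen ∈ 𝔪 := by
      apply hle
      rw [mem_centre_iff, IsLocalRing.mem_maximalIdeal, mem_nonunits_iff]
      intro hunit
      have h1 : ((chartToPlace (W3 A hQ i) hBW ρ Q hQB (isChartRing_Bji A M').gen :
          Q.toValuationSubring) : Fb) ∈ Q.toValuationSubring.nonunits := hji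
      rw [ValuationSubring.mem_nonunits_iff_exists_mem_maximalIdeal] at h1
      obtain ⟨h2, h3⟩ := h1
      rw [IsLocalRing.mem_maximalIdeal, mem_nonunits_iff] at h3
      exact h3 hunit
    haveI := hufdji 𝔪 h𝔪 hq𝔪 hgen
    refine dvd_ord_of_ufd_above (W3 A hQ i) hBW ρ hρ Q hQB 𝔪 hle hm (u₀ : F₀) u₀.ne_zero
      (hu i).1 (hu i).2 ?_
    intro 𝔭 _
    by_cases hq𝔭 : baseB j₀⁻¹ (q0 A q) ∈ 𝔭.1
    · obtain ⟨i', rfl⟩ := (hf2' 𝔭).1 ((mem_vertFinset hqB' 𝔭).2 hq𝔭)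
      refine hord_of_unitAt m ?_
      unfold UnitAt
      rw [hf1' i']
      exact hu i'
    · refine hord_horizontal A (M' * q * q) m u₀ hK 𝔭 ?_
      refine algebraMap_K0_mem_of_baseRing A hq hA (algebraMap (K0 A) F₀) (V1 F₀ 𝔭) ?_ ?_
      · intro c hc
        exact algebraMap_mem_V1 𝔭 (baseB j₀⁻¹ (⟨c, hc⟩ : R0 A))
      · have h1 := inv_algebraMap_mem_V1 (F := F₀) 𝔭 hq𝔭
        have e : algebraMap Bji F₀ (baseB j₀⁻¹ (q0 A q)) = ((q : ℕ) : F₀) := hqF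
        rw [e] at h1
        exact h1

end Fermat.Agent.GE8.SQ.Node3
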