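/-
GATE-E (S59) / block E8 / node E8.SQ / M2 NODE3 (helper38), file 3a: **REG at the triple points of
the `j`-frame, in the `jK0` spelling of the chart.**

helper28's `TripleRegFinal.ufd_at_triple_chart_thm` is stated on
`chartRing (R0 A) (jC (M' q q) (K0 A))`; the frames of `GL/Final` are spelled with
`jK0 A (M' q q)` (`= jC …` by `OrthK0.jK0_eq_jC`, not `rfl`).  Transport along the equality.
-/
import Fermat.Agent.GL.Reg.TripleRegFinal

set_option autoImplicit false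
set_option linter.unusedSectionVars false

noncomputable section

namespace Fermat.Agent.GE8.SQ.Node3

open ModularCurve
open Fermat.Agent.S24 Fermat.Agent.GK.AL Fermat.Agent.GL.AL
open Fermat.Agent.GL.Val.GaussK0 Fermat.Agent.GL.Val.SecondK0 Fermat.Agent.GL.Val.SecondK0Hall
open Fermat.Agent.GL.Val.ThirdK0 Fermat.Agent.GL.Val.DegBase Fermat.Agent.GL.Val.OrthK0
open Fermat.Agent.GL.Frame.Inst
open Fermat.Agent.Common_helper32

variable {N' : ℕ} [NeZero N'] {ℓ : ℕ} [Fact ℓ.Prime] [NeZero ℓ]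
variable {A : ValuationSubring Qb}
variable (hQ : HallDvd (ℓ ^ 2) (N' * ℓ * ℓ))
variable (hℓN : ¬ ℓ ∣ N') (hA : A.LiesOverPrime ℓ)

local notation "F1" => modularFunctionFieldFullC (K0 A) (N' * ℓ * ℓ)

include hℓN hA in
/-- REG at a triple point, for any spelling `t` of the chart `j`. -/
theorem ufd_at_triple_of_eq (h : ExactDvd ℓ (N' * ℓ)) (h2 : ℓ = 2 → 3 ∣ N') (h3 : ℓ = 3 → 2 ∣ N')
    {r : ℕ} (hr : r.Prime) (hrN : r ∣ N') (hr3 : r % 3 = 2) (hr4 : r % 4 = 3)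
    (t : F1) (ht : t = jC (N' * ℓ * ℓ) (K0 A))
    (x : Ideal (chartRing (R0 A) t)) [x.IsPrime]
    (hx1 : ∀ b : chartRing (R0 A) t, (b : F1) ∈ (RwK0 A (N' * ℓ * ℓ)).nonunits → b ∈ x)
    (hx2 : ∀ b : chartRing (R0 A) t,
      (b : F1) ∈ (redData2QK0 A (N' * ℓ * ℓ) hQ).Rw.nonunits → b ∈ x) :
    UniqueFactorizationMonoid (Localization.AtPrime x) := by
  subst ht
  exact Fermat.Agent.GL.TripleRegFinal.ufd_at_triple_chart_thm h hQ hℓN hA h2 h3 hr hrN hr3 hr4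
    x hx1 hx2

include hℓN hA in
/-- **REG at a triple point of `chartRing (R0 A) (jK0 A (N' ℓ ℓ))`.** -/
theorem ufd_at_triple_jK0 (h : ExactDvd ℓ (N' * ℓ)) (h2 : ℓ = 2 → 3 ∣ N') (h3 : ℓ = 3 → 2 ∣ N')
    {r : ℕ} (hr : r.Prime) (hrN : r ∣ N') (hr3 : r % 3 = 2) (hr4 : r % 4 = 3)
    (x : Ideal (chartRing (R0 A) (jK0 A (N' * ℓ * ℓ)))) [x.IsPrime]
    (hx1 : ∀ b : chartRing (R0 A) (jK0 A (N' * ℓ * ℓ)),
      (b : F1) ∈ (RwK0 A (N' * ℓ * ℓ)).nonunits → b ∈ x)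
    (hx2 : ∀ b : chartRing (R0 A) (jK0 A (N' * ℓ * ℓ)),
      (b : F1) ∈ (redData2QK0 A (N' * ℓ * ℓ) hQ).Rw.nonunits → b ∈ x) :
    UniqueFactorizationMonoid (Localization.AtPrime x) :=
  ufd_at_triple_of_eq hQ hℓN hA h h2 h3 hr hrN hr3 hr4 (jK0 A (N' * ℓ * ℓ))
    (jK0_eq_jC A (N' * ℓ * ℓ)) x hx1 hx2

end Fermat.Agent.GE8.SQ.Node3
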