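/-
GATE-E (S59) / block E8 / node E8.SQ / M2 NODE3 (helper38), file 2: **factoriality of the local
ring at a closed point of a three-component frame, from the TYPED data of GATE-L**.

`Bf ⊂ F` a noetherian integrally closed frame with vertical primes `vert = {f 0, f 1, f 2}`
(`q ∈ f i`), `𝔫` a prime with `q ∈ 𝔫`.  Either the three components pass through `𝔫` (a triple
point: factoriality is REG, an input `htriple`), or at most one does, and then exactly one `𝔭₀`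
does (Krull) and `O_𝔫` is factorial by helper47 `LocTypeI.ufd_localization`:
* `𝔭₀ = f 0, f 1` : `π = q` (`hunif0`, `hunif1`: `q` uniformises `V1 (f i)`);
* `𝔭₀ = f 2`      : the REG3 datum `hreg3` (a local generator `π` of `f 2` at `𝔫`);
* `hval` : `Bf ⧸ 𝔭₀` is a valuation ring at `𝔫` (helper84).
These are EXACTLY the binders `hunif0 hunif1 hreg3 hval` (+ `hone` / `hdich`) of helper11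
`H5TypeI.hallj_typed / hallji_typed`, all of which are theorems on main at level `M' q q`.
-/
import Fermat.Agent.GL.Frame.LocTypeIq
import Fermat.Agent.GL.Frame.LocDispatch

set_option autoImplicit false
set_option linter.unusedSectionVars false

namespace Fermat.Agent.GE8.SQ.Node3

open Fermat.Agent.GL Fermat.Agent.GL.KrullFrame Fermat.Agent.GL.Frame.HeightOne
  Fermat.Agent.GL.Frame.LocTypeI Fermat.Agent.GL.Frame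

section Typed

variable {F : Type*} [Field F] {Bf : Subring F} [IsFractionRing Bf F]
  [IsNoetherianRing Bf] [IsIntegrallyClosed Bf]

/-- **exactly one vertical component through `𝔫`** ⟹ `O_𝔫` factorial. -/
theorem ufd_of_one_component (vert : Finset (HtOne Bf)) {q : Bf} (hq0 : q ≠ 0)
    (hvert : ∀ 𝔭 : HtOne Bf, q ∈ 𝔭.1 → 𝔭 ∈ vert) (hqv : ∀ j ∈ vert, q ∈ j.1)
    (f : Fin 3 → HtOne Bf) (hf : ∀ p, p ∈ vert ↔ ∃ i, f i = p)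
    (𝔫 : Ideal Bf) [𝔫.IsPrime]
    (hunif0 : ∀ x : F, x ∈ (V1 F (f 0)).nonunits → x / (q : F) ∈ V1 F (f 0))
    (hunif1 : ∀ x : F, x ∈ (V1 F (f 1)).nonunits → x / (q : F) ∈ V1 F (f 1))
    (hreg3 : (f 2).1 ≤ 𝔫 → (∀ j ∈ vert, j ≠ f 2 → ¬ j.1 ≤ 𝔫) →
      ∃ π : Bf, π ≠ 0 ∧ π ∈ (f 2).1 ∧ (∀ x ∈ (f 2).1, ∃ s : Bf, s ∉ (f 2).1 ∧ π ∣ s * x) ∧
        (∀ 𝔮 : HtOne Bf, 𝔮 ≠ f 2 → 𝔮.1 ≤ 𝔫 → π ∉ 𝔮.1))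
    (hval : ∀ 𝔭₀ ∈ vert, 𝔭₀.1 ≤ 𝔫 → (∀ j ∈ vert, j ≠ 𝔭₀ → ¬ j.1 ≤ 𝔫) →
      ∀ a b : Bf, ∃ c s : Bf, s ∉ 𝔫 ∧ (s * a - c * b ∈ 𝔭₀.1 ∨ s * b - c * a ∈ 𝔭₀.1))
    {𝔭₀ : HtOne Bf} (h𝔭₀ : 𝔭₀ ∈ vert) (h𝔭𝔫 : 𝔭₀.1 ≤ 𝔫)
    (hbr : ∀ j ∈ vert, j ≠ 𝔭₀ → ¬ j.1 ≤ 𝔫) :
    UniqueFactorizationMonoid (Localization.AtPrime 𝔫) := by
  obtain ⟨i, rfl⟩ := (hf 𝔭₀).1 h𝔭₀
  have hv := hval (f i) h𝔭₀ h𝔭𝔫 hbr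
  fin_cases i
  · exact ufd_localization (F := F) 𝔫 h𝔭𝔫 hq0 (hqv _ h𝔭₀)
      (LocTypeI.hgen_of_unif (F := F) hq0 hunif0) (LocTypeI.hother_of_hbr vert hvert 𝔫 hbr) hv
  · exact ufd_localization (F := F) 𝔫 h𝔭𝔫 hq0 (hqv _ h𝔭₀)
      (LocTypeI.hgen_of_unif (F := F) hq0 hunif1) (LocTypeI.hother_of_hbr vert hvert 𝔫 hbr) hv
  · obtain ⟨π, hπne, hπ0, hgen, hother⟩ := hreg3 h𝔭𝔫 hbr
    exact ufd_localization (F := F) 𝔫 h𝔭𝔫 hπne hπ0 hgen hother hv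

/-- **factoriality at every closed point of the special fibre of a three-component frame**: the
dichotomy (all three components / at most one), REG at the triple points, typed type I data
elsewhere. -/
theorem ufd_of_typed (vert : Finset (HtOne Bf)) {q : Bf} (hq0 : q ≠ 0)
    (hvert : ∀ 𝔭 : HtOne Bf, q ∈ 𝔭.1 → 𝔭 ∈ vert) (hqv : ∀ j ∈ vert, q ∈ j.1)
    (f : Fin 3 → HtOne Bf) (hf : ∀ p, p ∈ vert ↔ ∃ i, f i = p)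
    (𝔫 : Ideal Bf) [𝔫.IsPrime] (hq𝔫 : q ∈ 𝔫)
    (hcase : ((f 0).1 ≤ 𝔫 ∧ (f 1).1 ≤ 𝔫 ∧ (f 2).1 ≤ 𝔫) ∨
      (¬ ((f 0).1 ≤ 𝔫 ∧ (f 1).1 ≤ 𝔫) ∧ ¬ ((f 1).1 ≤ 𝔫 ∧ (f 2).1 ≤ 𝔫) ∧
        ¬ ((f 0).1 ≤ 𝔫 ∧ (f 2).1 ≤ 𝔫)))
    (htriple : (f 0).1 ≤ 𝔫 → (f 1).1 ≤ 𝔫 → (f 2).1 ≤ 𝔫 →
      UniqueFactorizationMonoid (Localization.AtPrime 𝔫))
    (hunif0 : ∀ x : F, x ∈ (V1 F (f 0)).nonunits → x / (q : F) ∈ V1 F (f 0))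
    (hunif1 : ∀ x : F, x ∈ (V1 F (f 1)).nonunits → x / (q : F) ∈ V1 F (f 1))
    (hreg3 : (f 2).1 ≤ 𝔫 → (∀ j ∈ vert, j ≠ f 2 → ¬ j.1 ≤ 𝔫) →
      ∃ π : Bf, π ≠ 0 ∧ π ∈ (f 2).1 ∧ (∀ x ∈ (f 2).1, ∃ s : Bf, s ∉ (f 2).1 ∧ π ∣ s * x) ∧
        (∀ 𝔮 : HtOne Bf, 𝔮 ≠ f 2 → 𝔮.1 ≤ 𝔫 → π ∉ 𝔮.1))
    (hval : ∀ 𝔭₀ ∈ vert, 𝔭₀.1 ≤ 𝔫 → (∀ j ∈ vert, j ≠ 𝔭₀ → ¬ j.1 ≤ 𝔫) →
      ∀ a b : Bf, ∃ c s : Bf, s ∉ 𝔫 ∧ (s * a - c * b ∈ 𝔭₀.1 ∨ s * b - c * a ∈ 𝔭₀.1)) :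
    UniqueFactorizationMonoid (Localization.AtPrime 𝔫) := by
  rcases hcase with ⟨h0, h1, h2⟩ | ⟨h01, h12, h02⟩
  · exact htriple h0 h1 h2
  · obtain ⟨𝔭₀, h𝔭₀, h𝔭𝔫, h⟩ := LocDispatch.typeI_or_triple vert hq0 hvert 𝔫 hq𝔫
    rcases h with h | ⟨j, hj, hne, hj𝔫⟩
    · exact ufd_of_one_component vert hq0 hvert hqv f hf 𝔫 hunif0 hunif1 hreg3 hval h𝔭₀ h𝔭𝔫 h
    · exfalso
      obtain ⟨i, rfl⟩ := (hf j).1 hj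
      obtain ⟨i', rfl⟩ := (hf 𝔭₀).1 h𝔭₀
      have hii : i ≠ i' := fun h => hne (by rw [h])
      fin_cases i <;> fin_cases i' <;> first
        | exact hii rfl
        | exact h01 ⟨hj𝔫, h𝔭𝔫⟩
        | exact h01 ⟨h𝔭𝔫, hj𝔫⟩
        | exact h12 ⟨hj𝔫, h𝔭𝔫⟩
        | exact h12 ⟨h𝔭𝔫, hj𝔫⟩
        | exact h02 ⟨hj𝔫, h𝔭𝔫⟩
        | exact h02 ⟨h𝔭𝔫, hj𝔫⟩

end Typed

end Fermat.Agent.GE8.SQ.Node3
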