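/-
GATE-E (S59) / block E8 / node E8.SQ / M2 NODE3 (helper38), file 3: **`O_𝔫` is factorial at EVERY
closed point of the special fibre of the `j`-frame at level `M' q q`.**

`Bj = chartRing (R₀ A) (jK0 A (M' q q)) ⊂ F₀ = K₀(X₀(M' q q))`, `𝔫` maximal with `q ∈ 𝔫`.
Re-assembly of the TYPED binders of helper11 `H5HalljK0Thm.hallj_K0_thm` (the proof block is copied
from there; the `U3` hypothesis of `hallj` is never used by them):

* `hdich`  : helper47 `ClassifyK0Full.dichotomy_frame`;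
* triple points : helper28 `TripleRegFinal.ufd_at_triple_chart_thm` (REG; through `jK0 = jC`);
* `hunif0/1` : `q` uniformises `w₁`, `w₂` (`H5UnifK0.exists_eq_q_mul₁ / ₂Q`);
* `hreg3`  : helper67 `Reg3BChartFeed.hreg3_K0_of_S4` + helper25 `S4Feed.hS4_BK0`;
* `hval`   : helper84 `HvalFinK0Thm.hval_binder_K0_jK0`;
* dispatch : `UfdTyped.ufd_of_typed`.
-/
import Fermat.Agent.GE8.SQ.Node3.UfdTyped
import Fermat.Agent.GE8.SQ.Node3.UfdTriple
import Fermat.Agent.GL.Final.H5HalljK0Thm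
import Fermat.Agent.GL.Reg3.S4InstFeed

set_option autoImplicit false
set_option linter.unusedSectionVars false
set_option linter.unusedVariables false
set_option linter.style.haveILetI false

noncomputable section

namespace Fermat.Agent.GE8.SQ.Node3

open Polynomial

section K0

open AlgebraicCurve ModularCurve IntermediateField IsLocalRing HahnSeries
open Fermat.Agent.S24 Fermat.Agent.S24_helper62 Fermat.Agent.S24_helper82
open Fermat.Agent.GJ.J1 Fermat.Agent.GJ.J1.Val Fermat.Agent.GJ.HN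
open Fermat.Agent.GK.AL Fermat.Agent.GK.QS Fermat.Agent.GK.FrobGlue Fermat.Agent.GL.AL
open Fermat.Agent.Common_helper32
open Fermat.Agent.GL.SmallQ
open Fermat.Agent.GL.Val.GaussK0 Fermat.Agent.GL.Val.SecondK0 Fermat.Agent.GL.Val.SecondK0Hall
open Fermat.Agent.GL.Val.ThirdK0 Fermat.Agent.GL.Val.OrthK0 Fermat.Agent.GL.Val.L1eAsmK0
open Fermat.Agent.GL.BRingK0 Fermat.Agent.GL.Table.K0 Fermat.Agent.GL.Thick
open Fermat.Agent.GL.OldTriplesK0
open Fermat.Agent.GL.Frame.ClassifyInst Fermat.Agent.GL.Frame.ClassifyK0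
open Fermat.Agent.GL.Frame.ClassifyK0Full
open Fermat.Agent.GL.Frame.HeightOne Fermat.Agent.GL.Frame.Inst
open Fermat.Agent.GL.Frame.InstVal Fermat.Agent.GL.Frame.Kummer
open Fermat.Agent.GL.ChartChange Fermat.Agent.GL.Gate Fermat.Agent.GL.GaussAt
open Fermat.Agent.GL.H4OfXi Fermat.Agent.GL.LocGlue
open Fermat.Agent.GL.Final.H5 Fermat.Agent.GL.Final.H5HalljK0 Fermat.Agent.GL.Final.H5UnifK0
open Fermat.Agent.GL.Final.H5HalljK0Thm
open Fermat.Agent.GL.Val.CuspK0 Fermat.Agent.GL.Val.CuspCoeff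
open Fermat.Agent.GL.Frame.Chart Fermat.Agent.GL.BuildInst Fermat.Agent.GL.Reg3.BChartFeed
open Fermat.Agent.GL.Reg3.BCong

variable (A : ValuationSubring Qb) {q : ℕ} (M' : ℕ) [NeZero M'] [NeZero q]

local notation "kA" => IsLocalRing.ResidueField A
local notation "F₀" => modularFunctionFieldFullC (K0 A) (M' * q * q)
local notation "Fq" => modularFunctionFieldFullC (K0 A) (M' * q)
local notation "j₀" => jK0 A (M' * q * q)
local notation "αK" => ((alphaK0 A (M' * q) q : Fq →ₐ[K0 A] F₀) : Fq →+* F₀)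
local notation "Bj" => chartRing (R0 A) (jK0 A (M' * q * q))

set_option synthInstance.maxHeartbeats 400000 in
set_option maxHeartbeats 6400000 in
/-- **REG at every closed point of the special fibre of the `j`-frame, level `M' q q`.** -/
theorem ufd_closed_point_j (hq : q.Prime) (hqM : ¬ q ∣ M') (hA : A.LiesOverPrime q)
    (hQ : HallDvd (q ^ 2) (M' * q * q))
    (h2 : q = 2 → 3 ∣ M') (h3 : q = 3 → 2 ∣ M')
    {r : ℕ} (hr : r.Prime) (hrN : r ∣ M') (hr3 : r % 3 = 2) (hr4 : r % 4 = 3) :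
    ∀ [IsFractionRing Bj F₀] [IsNoetherianRing Bj] [IsIntegrallyClosed Bj]
      (𝔫 : Ideal Bj) [𝔫.IsPrime], 𝔫.IsMaximal → baseB j₀ (q0 A q) ∈ 𝔫 →
      UniqueFactorizationMonoid (Localization.AtPrime 𝔫) := by
  haveI : Fact q.Prime := ⟨hq⟩
  -- the base DVR
  have hdvr := isDiscreteValuationRing_R0 A hq hA
  have hq0 : Prime (q0 A q) := Fermat.Agent.GL.Frame.ChartInstK0.prime_q0 A hq hA
  -- level bookkeeping
  have hN : M' * q * q = M' * q ^ 2 := by ring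
  have hq2 : q ^ 2 * 1 ∣ M' * q * q := by rw [mul_one, hN]; exact dvd_mul_left _ _
  haveI : NeZero (q ^ 2 * 1) := ⟨by rw [mul_one]; exact pow_ne_zero 2 hq.ne_zero⟩
  have hfd : FiniteDimensional (K0 A)⟮j₀⟯ F₀ := by
    rw [jK0_eq_jC]
    exact Fermat.Agent.GL.Val.DegBase.finiteDimensional_fullC (M' * q * q) (K0 A)
  -- the three valuations
  have hWover : ∀ i, ∀ a : K0 A, algebraMap (K0 A) F₀ a ∈ W3 A hQ i ↔ a ∈ R0 A := fun i =>
    (isRamified_W3_R0 A hq hN hqM hA hQ (one_dvd M') hq2 (one_dvd _) i).mem_iff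
  have hWG : ∀ i, IsGaussAt (R0 A) (W3 A hQ i) j₀ := isGaussAt_W3 A hQ
  have hnoextG : ∀ V : ValuationSubring F₀,
      (∀ a : K0 A, algebraMap (K0 A) F₀ a ∈ V ↔ a ∈ R0 A) → IsGaussAt (R0 A) V j₀ →
      ∃ i, V = W3 A hQ i := fun V hV hG => by
    rcases Fermat.Agent.GL.Val.L1eThm.exists_eq A hq hN hqM hA hQ (V := V)
      (fun a => hG.mem_iff_mem hV (hWover 0) (hWG 0) a.2) with h | h | h
    · exact ⟨0, h⟩
    · exact ⟨1, h⟩
    · exact ⟨2, h⟩
  have hWinj : Function.Injective (W3 A hQ) := by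
    intro a b hab
    by_contra hne
    exact incomparable_W3 A hq hN hqM hA hQ a b hne (le_of_eq hab)
  -- `q` uniformises `w₁`, `w₂`
  have hqF : algebraMap (R0 A) F₀ (q0 A q) = (q : F₀) := algebraMap_q0 A (M' * q * q)
  have hqne : (q : F₀) ≠ 0 := Nat.cast_ne_zero.mpr hq.ne_zero
  have hunif0 : ∀ x : F₀, x ∈ (W3 A hQ 0).nonunits →
      x / algebraMap (R0 A) F₀ (q0 A q) ∈ W3 A hQ 0 := by
    rw [hqF]
    refine div_mem_of_dvd (RwK0 A (M' * q * q)) hqne ?_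
    intro x hx
    obtain ⟨y, hy, hxy⟩ := exists_eq_q_mul₁ A (M' * q * q) hq hA x hx
    exact ⟨y, hy, by rw [hxy, algebraMap_q0]⟩
  have hunif1 : ∀ x : F₀, x ∈ (W3 A hQ 1).nonunits →
      x / algebraMap (R0 A) F₀ (q0 A q) ∈ W3 A hQ 1 := by
    rw [hqF]
    refine div_mem_of_dvd (redData2QK0 A (M' * q * q) hQ).Rw hqne ?_
    intro x hx
    obtain ⟨y, hy, hxy⟩ := exists_eq_q_mul₂Q A (M' * q * q) hQ hq hA x hx
    exact ⟨y, hy, by rw [hxy, algebraMap_q0]⟩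
  intro i1 i2 i3 𝔫 h𝔫p h𝔫 hq𝔫
  -- the frame
  obtain ⟨_, _, _, hqB, f, hf1, hf2, hf3, hf4⟩ :=
    exists_frame_self (A := R0 A) hq0.irreducible (W3 A hQ) hWover hWG hnoextG
  have hinj : Function.Injective f := hf4 hWinj
  -- the typed block of `hallj_K0_thm`
  have hexq : ExactDvd q (M' * q) := Fermat.Agent.GL.AL.exactDvd_mul M' hq hqM
  obtain ⟨J', hJ, hJ', -⟩ := Fermat.Agent.GL.BRingK0.exists_ideal_K0 hexq hqM hA h2 h3
  have hBf : ∀ x : F₀, x ∈ Bj ↔ x ∈ B3K0 M' q A hQ := fun x => by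
    rw [Fermat.Agent.GL.Val.B3ChartK0.B3K0_eq_chartRing_jK0 hqM hA]
  have hqBcoe : ((baseB j₀ (q0 A q) : Bj) : F₀) = ((q : ℕ) : F₀) := by
    exact algebraMap_q0 A (M' * q * q)
  have hαAB : ∀ a ∈ BRingK0 M' q A hexq, αK a ∈ Bj := alpha_mem_frame A M' hQ hexq hqM hBf
  have hβAB := beta_mem_frame A M' hQ hexq hqM hBf
  have hvert' : ∀ 𝔭 : HtOne Bj, baseB j₀ (q0 A q) ∈ 𝔭.1 → ∃ i, f i = 𝔭 :=
    fun 𝔭 h => (hf2 𝔭).1 ((mem_vertFinset hqB 𝔭).2 h)
  have hp : ((intSsPolyAll q).map (Int.castRingHom (R0 A))).map (resR0 A) =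
      @ssPolyAll q ⟨hq⟩ (IsLocalRing.ResidueField A) _
        (Fermat.Agent.GJ.J1.Val.charP_residue A hq hA) :=
    haveI : CharP (IsLocalRing.ResidueField A) q := Fermat.Agent.GJ.J1.Val.charP_residue A hq hA
    intSsPolyAll_map_map q (IsLocalRing.ResidueField A) (resR0 A)
  have hdich := dichotomy_frame A M' hQ hexq hqM hA h2 h3 hr hrN hr3 hr4 hJ hJ' hp
    (Fermat.Agent.GL.Frame.ClassifyC5.hB3_rdK2 A M' hQ hqM hA) hBf hαAB hβAB f (hf3 0) (hf3 1)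
    (hf3 2) hqBcoe hvert' 𝔫 h𝔫 hq𝔫
  -- the congruence `p(j) ≡ pH(j) mod q`
  have hjmem : j₀ ∈ Bj := subset_icRing (R0 A) {j₀} rfl
  have hcongr : Polynomial.aeval (⟨j₀, hjmem⟩ : Bj) (intSsPolyAll q) ∈ 𝔫 →
      resHom αK (BRingK0 M' q A hexq) Bj hαAB
        (((intSsPolyAll q).map (Int.castRingHom (R0 A))).eval₂ (cstK0 M' q A hexq) (jK0B M' q A hexq)) ∈ 𝔫 := by
    intro hsB
    set p : (R0 A)[X] := (intSsPolyAll q).map (Int.castRingHom (R0 A)) with hpdef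
    set φ : R0 A →+* Bj :=
      (resHom αK (BRingK0 M' q A hexq) Bj hαAB).comp (cstK0 M' q A hexq) with hφ
    have hjj : resHom αK (BRingK0 M' q A hexq) Bj hαAB (jK0B M' q A hexq) =
        (⟨j₀, hjmem⟩ : Bj) := Subtype.ext (resHom_alpha_jK0B A M' hexq Bj hαAB)
    have e1 : resHom αK (BRingK0 M' q A hexq) Bj hαAB
        (p.eval₂ (cstK0 M' q A hexq) (jK0B M' q A hexq)) =
        p.eval₂ φ (⟨j₀, hjmem⟩ : Bj) := by
      rw [Polynomial.hom_eval₂, hjj]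
    have e2 : Polynomial.aeval (⟨j₀, hjmem⟩ : Bj) (intSsPolyAll q) =
        ((intSsPolyAll q).map (Int.castRingHom (R0 A))).eval₂ φ (⟨j₀, hjmem⟩ : Bj) := by
      rw [Polynomial.eval₂_map, Polynomial.aeval_def]
      congr 1
      exact RingHom.ext_int _ _
    have hφq : φ (q0 A q) ∈ 𝔫 := by
      have : φ (q0 A q) = baseB j₀ (q0 A q) :=
        Subtype.ext (resHom_alpha_comp_cst A M' hexq Bj hαAB (q0 A q))
      rw [this]; exact hq𝔫
    haveI : CharP kA q := charP_residue A hq hA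
    have hpp : p.map (resR0 A) =
        ((intSsPolyAll q).map (Int.castRingHom (R0 A))).map (resR0 A) := rfl
    have h := eval₂_sub_mem_of_map_eq A hq hA φ 𝔫 hφq p _ hpp (⟨j₀, hjmem⟩ : Bj)
    rw [e1]
    rw [e2] at hsB
    have := 𝔫.add_mem h hsB
    rwa [sub_add_cancel] at this
  -- the dispatcher
  have hWj' : ∀ p ∈ vertFinset hqB, ∃ i, (V1 F₀ p : ValuationSubring F₀) = W3 A hQ i := by
    intro p hp
    obtain ⟨i, rfl⟩ := (hf2 p).1 hp
    exact ⟨i, hf1 i⟩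
  refine ufd_of_typed (vertFinset hqB) hqB (fun 𝔭 h => (mem_vertFinset hqB 𝔭).2 h)
    (fun p hp => (mem_vertFinset hqB p).1 hp) f hf2 𝔫 hq𝔫 ?_ ?_ ?_ ?_ ?_ ?_
  · -- the dichotomy
    rcases hdich with ⟨-, h0, h1, h2', -⟩ | ⟨-, h01, h12, h02⟩
    · exact Or.inl ⟨h0, h1, h2'⟩
    · exact Or.inr ⟨h01, h12, h02⟩
  · -- triple points: REG
    intro h0 h1 _
    exact ufd_at_triple_jK0 hQ hqM hA hexq h2 h3 hr hrN hr3 hr4 𝔫
      (fun b hb => h0 ((hf3 0 b).2 hb)) (fun b hb => h1 ((hf3 1 b).2 hb))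
  · -- `hunif0`
    have := hunif0
    rw [← hf1 0] at this
    exact this
  · -- `hunif1`
    have := hunif1
    rw [← hf1 1] at this
    exact this
  · -- `hreg3`
    intro h2𝔫 hbr
    have hs : resHom αK (BRingK0 M' q A hexq) Bj hαAB
        (((intSsPolyAll q).map (Int.castRingHom (R0 A))).eval₂ (cstK0 M' q A hexq) (jK0B M' q A hexq)) ∉ 𝔫 := by
      rcases hdich with ⟨-, h0, -⟩ | ⟨hs, -⟩
      · exact absurd h0 (hbr (f 0) ((hf2 _).2 ⟨0, rfl⟩) (fun h => by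
          have := hinj h
          exact absurd this (by decide)))
      · exact hs
    have hgmem : Fermat.Agent.GK.Val.GaussBase.genC (K0 A) (R0 A) (M' * q * q) hq2 ∈ Bj :=
      (Fermat.Agent.GL.Frame.ArithInt.isIntegral_adjoin_genC_iff (M' * q * q) (R0 A) hq2
        (one_dvd (M' * q * q)) (R0 A) _).1
        (subset_icRing (R0 A)
          {Fermat.Agent.GK.Val.GaussBase.genC (K0 A) (R0 A) (M' * q * q) hq2} rfl)
    have hymem : y3K0 A (M' * q * q) q hq2 (one_dvd (M' * q * q)) ∈ Bj := by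
      rw [Fermat.Agent.GL.Reg3.CuspCongrK0.y3K0_eq_sub]
      exact sub_mem hgmem hjmem
    have hα : ∀ b ∈ BK0 A M', alpha2 A M' q b ∈ Bj := fun b hb => by
      rw [← BK0_eq_chartRing_jK0]; exact alpha2_mem_BK0 A b hb
    have hγ : ∀ b ∈ BK0 A M', gamma2 A M' q b ∈ Bj := fun b hb => by
      rw [← BK0_eq_chartRing_jK0]; exact gamma2_mem_BK0 A b hb
    have key := hreg3_K0_of_S4 A hq2 hqM hA hq (vertFinset hqB) (𝔭₀ := f 2) (hf1 2)
      (qB := baseB j₀ (q0 A q)) (jB := ⟨j₀, hjmem⟩) (yB := ⟨_, hymem⟩)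
      (sB := Polynomial.aeval (⟨j₀, hjmem⟩ : Bj) (intSsPolyAll q)) hqBcoe rfl rfl rfl
      (fun 𝔭 h => (mem_vertFinset hqB 𝔭).2 h) hα hγ
      (@Fermat.Agent.GL.Reg3.S4Feed.hS4_BK0 A M' q _ _ ⟨hq⟩ hqM hA r hr hrN hr3 hr4)
    exact key 𝔫 h𝔫 ⟨hq𝔫, fun h => hs (hcongr h)⟩ h2𝔫 hbr
  · -- `hval`
    intro 𝔭₀ h𝔭₀ h𝔭𝔫 hbr
    exact Fermat.Agent.GL.Final.HvalFinK0Thm.hval_binder_K0_jK0 (hQ := hQ) hqM hA h2 h3
      (Fermat.Agent.GL.Frame.InstAdapt.isChartRing_chartRing _) (vertFinset hqB) hWj'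
      (fun _ => True) 𝔫 h𝔫 trivial 𝔭₀ h𝔭₀ h𝔭𝔫 hbr

end K0

end Fermat.Agent.GE8.SQ.Node3
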