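/-
GATE-E (S59) / block E8 / node E8.SQ / M2 NODE3 (helper38), file 9: **NODE3 CLOSED, BINDER-FREE** —
helper97's `Stmt3K.NodeHyp3K` at level `M' q q` (ANY modulus `m ≠ 0`) and the closed form
`Stmt3K.NodeHyp3KStmt`.

`MainQ.nodeHyp3K_of` with the two factoriality binders discharged by `UfdJ.ufd_closed_point_j`
(every closed point of the special fibre of the `j`-frame) and `UfdJi.ufd_cusp_ji` (every cuspidal
closed point of the `1/j`-frame).
-/
import Fermat.Agent.GE8.SQ.Node3.MainQ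
import Fermat.Agent.GE8.SQ.Node3.UfdJ
import Fermat.Agent.GE8.SQ.Node3.UfdJi

set_option autoImplicit false
set_option linter.unusedSectionVars false
set_option linter.unusedVariables false

noncomputable section

namespace Fermat.Agent.GE8.SQ.Node3

open AlgebraicCurve ModularCurve IsLocalRing
open Fermat.Agent.GJ Fermat.Agent.GJ.KumGroup
open Fermat.Agent.GK.AL Fermat.Agent.GL.AL
open Fermat.Agent.GL.Final.GeomGate
open Fermat.Agent.GE8.SQ.Stmt Fermat.Agent.GE8.SQ.Stmt3 Fermat.Agent.GE8.SQ.Stmt3K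
open Fermat.Agent.Common_helper32

section Qbar

variable {M' q : ℕ} [NeZero M'] [Fact q.Prime] (A : ValuationSubring Kb)

/-- **(M2 NODE3), helper97's corrected spelling `Stmt3K.NodeHyp3K`**, level `M' q q` literal, ANY
modulus `m ≠ 0`, BINDER-FREE (arithmetic side conditions only). -/
theorem nodeHyp3K (hqM : ¬ q ∣ M') (hA : A.LiesOverPrime q)
    (hQ : HallDvd (q ^ 2) (M' * q * q)) (h2 : q = 2 → 3 ∣ M') (h3 : q = 3 → 2 ∣ M')
    {r : ℕ} (hr : r.Prime) (hrN : r ∣ M') (hr3 : r % 3 = 2) (hr4 : r % 4 = 3)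
    {m : ℕ} (hm : m ≠ 0) : NodeHyp3K (M' := M') (q := q) A hQ m :=
  nodeHyp3K_of A hqM hA hQ
    (ufd_closed_point_j A M' Fact.out hqM hA hQ h2 h3 hr hrN hr3 hr4)
    (ufd_cusp_ji A M' Fact.out hqM hA hQ h2 h3) hm

/-- **(M2 NODE3), closed form `Stmt3K.NodeHyp3KStmt`**, BINDER-FREE. -/
theorem nodeHyp3KStmt : NodeHyp3KStmt := by
  intro p _ hp2 M' q _ _ hqp hgood A hA
  have hq : q.Prime := Fact.out
  have hL0 : M' * q ≠ 0 := mul_ne_zero (NeZero.ne M') hq.ne_zero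
  obtain ⟨M, hM, hM0, hqM, ⟨r, hr, hr3, hr4, -, hrq, hrM, -⟩, h2, h3⟩ :=
    hgood.exists_bottom hq hL0
  have hMM : M = M' := (Nat.eq_of_mul_eq_mul_right hq.pos hM).symm
  subst hMM
  exact nodeHyp3K A hqM hA _ h2 h3 hr hrM hr3 hr4 (Fact.out : p.Prime).ne_zero

end Qbar

end Fermat.Agent.GE8.SQ.Node3
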