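/-
GATE-E (S59) / block E8 / node E8.SQ / M2 NODE3 (helper38), file 8: **assembly** —
helper97's `Stmt3K.NodeHyp3K` / `Stmt3K.NodeHyp3KStmt` (RULING K0 spelling: third conjunct `(D3)` in
the copy `κ₃` of `k(X₀(M'))`).

Level `N = M' q q`, `q ∤ M'`, `A | q`, GoodAux facts (`q = 2 → 3 ∣ M'`, `q = 3 → 2 ∣ M'`, a prime
`r ≡ 11 (12)` dividing `M'`), ANY modulus `m ≠ 0`.

* `mem_of_redF?U_algebraMap` : the three `K₀`-level reductions `redF1U redF2U redF3U` of helper15's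
  `RedInCThm` (values in `FresBar M' A = k(X₀(M'))`) send `R₀` to constants;
* `node3_K0`   : for `u₀ ∈ K₀(X₀(N))ˣ`, a unit along the three components, with `mapK0Bar u₀`
  `m`-divisible: `m ∣ ord_Q (redF_iU u₀)` for EVERY place `Q` of `k(X₀(M'))`, `i = 1,2,3`
  (`Core.dvd_ord_of_W3`; the two factoriality statements `UfdJ.ufd_closed_point_j`,
  `UfdJi.ufd_cusp_ji` are still BINDERS `hufdj hufdji` in this file, plugged in `Final.lean`);
* the `ℚ̄`-level form `nodeHyp3K_of` is in `MainQ.lean`.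
-/
import Fermat.Agent.GE8.SQ.Node3.Core
import Fermat.Agent.GL.Fibre.RedInCThm
import Fermat.Agent.GL.Red.RatLiftK0
import Fermat.Agent.GL.Final.GoodAuxFacts
import Fermat.Agent.GE8.SQ.ResBarTop
import Fermat.Agent.GE8.SQ.Stmt3K

set_option autoImplicit false
set_option linter.unusedSectionVars false
set_option linter.unusedVariables false
set_option linter.style.haveILetI false

noncomputable section

namespace Fermat.Agent.GE8.SQ.Node3

open AlgebraicCurve ModularCurve IsLocalRing HahnSeries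
open Fermat.Agent.S24
open Fermat.Agent.GJ Fermat.Agent.GJ.KumGroup Fermat.Agent.GJ.Kum.KumType
open Fermat.Agent.GJ.J1 Fermat.Agent.GJ.J1.Val
open Fermat.Agent.GK.AL Fermat.Agent.GL.AL
open Fermat.Agent.GK.UqKronecker
open Fermat.Agent.GL.Val.GaussK0 Fermat.Agent.GL.Val.SecondK0 Fermat.Agent.GL.Val.SecondK0Hall
open Fermat.Agent.GL.Val.ThirdK0 Fermat.Agent.GL.Val.OrthK0 Fermat.Agent.GL.Val.L1eAsmK0
open Fermat.Agent.GL.Table.K0
open Fermat.Agent.GL.CuspVal Fermat.Agent.GL.W3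
open Fermat.Agent.GL.OldTriplesK0 Fermat.Agent.GL.RedInC Fermat.Agent.GL.RedInCThm
open Fermat.Agent.GL.Frame.Inst Fermat.Agent.GL.Final.H5Hallji
open Fermat.Agent.GL.Final.GeomGate
open Fermat.Agent.GB.A
open Fermat.Agent.GE8.SQ.Stmt Fermat.Agent.GE8.SQ.Stmt3 Fermat.Agent.GE8.SQ.Stmt3K
open Fermat.Agent.Common_helper32

/-! ### places of equal intermediate fields -/

section Transport

variable {k L : Type*} [Field k] [Field L] [Algebra k L]

/-- places transport along an equality of intermediate fields. -/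
theorem exists_place_of_intermediateField_eq {E1 E2 : IntermediateField k L} (e : E1 = E2)
    (Q : Place k E1) :
    ∃ Q' : Place k E2, ∀ x : E1,
      Q'.ord (IntermediateField.inclusion (le_of_eq e) x) = Q.ord x := by
  subst e
  refine ⟨Q, fun x => ?_⟩
  congr 1

end Transport

section K0

variable (M' : ℕ) [NeZero M'] (q : ℕ) [hqF : Fact q.Prime] [NeZero q]
variable (A : ValuationSubring Qb) (hQ : HallDvd (q ^ 2) (M' * q * q))
variable (hqM : ¬ q ∣ M') (hA : A.LiesOverPrime q)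

local notation "kA" => ResidueField A
local notation "F₀" => modularFunctionFieldFullC (K0 A) (M' * q * q)

/-! ### the reductions send `R₀` to constants -/

include hQ in
theorem redF1U_algebraMap (a : R0 A) (ha : algebraMap (K0 A) F₀ (a : K0 A) ∈ RwK0 A (M' * q * q)) :
    redF1U M' q A hqM hA ⟨algebraMap (K0 A) F₀ (a : K0 A), ha⟩ =
      algebraMap kA (FresBar M' A) (residue A ⟨ι0 A (a : K0 A), (mem_R0_iff A _).1 a.2⟩) := by
  apply Subtype.ext
  rw [coe_redF1U]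
  exact rdK1_algebraMap M' q A hQ a

theorem redF2U_algebraMap (a : R0 A)
    (ha : algebraMap (K0 A) F₀ (a : K0 A) ∈ (redData2QK0 A (M' * q * q) hQ).Rw) :
    redF2U M' q A hQ hqM hA ⟨algebraMap (K0 A) F₀ (a : K0 A), ha⟩ =
      algebraMap kA (FresBar M' A) (residue A ⟨ι0 A (a : K0 A), (mem_R0_iff A _).1 a.2⟩) := by
  apply Subtype.ext
  rw [coe_redF2U]
  exact rdK2_algebraMap M' q A hQ a

include hQ in
theorem redF3U_algebraMap (a : R0 A)
    (ha : algebraMap (K0 A) F₀ (a : K0 A) ∈ Rw3K0 A (M' * q * q) q) :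
    redF3U M' q A hqM hA ⟨algebraMap (K0 A) F₀ (a : K0 A), ha⟩ =
      algebraMap kA (FresBar M' A) (residue A ⟨ι0 A (a : K0 A), (mem_R0_iff A _).1 a.2⟩) := by
  apply emb3_injective M' q A
  rw [emb3_apply, qExpand_redF3U, emb3_apply]
  have h1 : rhoK3 M' q A ⟨algebraMap (K0 A) F₀ (a : K0 A), ha⟩ =
      algebraMap kA (LaurentSeries kA)
        (residue A ⟨ι0 A (a : K0 A), (mem_R0_iff A _).1 a.2⟩) := rdK3_algebraMap M' q A hQ a
  rw [h1]
  show _ = qExpand kA (M' * q * q) (algebraMap kA (LaurentSeries kA) _)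
  rw [algebraMap_laurentSeries_eq_single, qExpand_single, mul_zero]

include hQ in
theorem redF1U_algebraMap_mem (Q : Place kA (FresBar M' A)) (a : R0 A)
    (ha : algebraMap (K0 A) F₀ (a : K0 A) ∈ RwK0 A (M' * q * q)) :
    redF1U M' q A hqM hA ⟨algebraMap (K0 A) F₀ (a : K0 A), ha⟩ ∈ Q.toValuationSubring := by
  rw [redF1U_algebraMap M' q A hQ hqM hA a ha]
  exact Q.algebraMap_mem' _

theorem redF2U_algebraMap_mem (Q : Place kA (FresBar M' A)) (a : R0 A)
    (ha : algebraMap (K0 A) F₀ (a : K0 A) ∈ (redData2QK0 A (M' * q * q) hQ).Rw) :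
    redF2U M' q A hQ hqM hA ⟨algebraMap (K0 A) F₀ (a : K0 A), ha⟩ ∈ Q.toValuationSubring := by
  rw [redF2U_algebraMap M' q A hQ hqM hA a ha]
  exact Q.algebraMap_mem' _

include hQ in
theorem redF3U_algebraMap_mem (Q : Place kA (FresBar M' A)) (a : R0 A)
    (ha : algebraMap (K0 A) F₀ (a : K0 A) ∈ Rw3K0 A (M' * q * q) q) :
    redF3U M' q A hqM hA ⟨algebraMap (K0 A) F₀ (a : K0 A), ha⟩ ∈ Q.toValuationSubring := by
  rw [redF3U_algebraMap M' q A hQ hqM hA a ha]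
  exact Q.algebraMap_mem' _

end K0

section Node

variable (A : ValuationSubring Qb) {q : ℕ} (M' : ℕ) [NeZero M'] [Fact q.Prime]

local notation "kA" => ResidueField A
local notation "F₀" => modularFunctionFieldFullC (K0 A) (M' * q * q)
local notation "Bj" => chartRing (R0 A) (jK0 A (M' * q * q))
local notation "Bji" => chartRing (R0 A) (jK0 A (M' * q * q))⁻¹

set_option synthInstance.maxHeartbeats 400000 in
set_option maxHeartbeats 3200000 in
/-- **NODE3 over `K₀`**: the three reductions of a `K₀`-rational three-unit with `m`-divisible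
divisor are `m`-divisible at every place of `k(X₀(M'))`. -/
theorem node3_K0 (hqM : ¬ q ∣ M') (hA : A.LiesOverPrime q)
    (hQ : HallDvd (q ^ 2) (M' * q * q))
    (hufdj : ∀ [IsFractionRing Bj F₀] [IsNoetherianRing Bj] [IsIntegrallyClosed Bj]
      (𝔫 : Ideal Bj) [𝔫.IsPrime], 𝔫.IsMaximal → baseB (jK0 A (M' * q * q)) (q0 A q) ∈ 𝔫 →
      UniqueFactorizationMonoid (Localization.AtPrime 𝔫))
    (hufdji : ∀ [IsFractionRing Bji F₀] [IsNoetherianRing Bji] [IsIntegrallyClosed Bji]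
      (𝔫 : Ideal Bji) [𝔫.IsPrime], 𝔫.IsMaximal →
      (isChartRing_Bji A M').toRingHom (q0 A q) ∈ 𝔫 → (isChartRing_Bji A M').gen ∈ 𝔫 →
      UniqueFactorizationMonoid (Localization.AtPrime 𝔫))
    {m : ℕ} (hm : m ≠ 0) (u₀ : F₀ˣ)
    (hu1 : (u₀ : F₀) ∈ RwK0 A (M' * q * q) ∧ (u₀ : F₀)⁻¹ ∈ RwK0 A (M' * q * q))
    (hu2 : (u₀ : F₀) ∈ (redData2QK0 A (M' * q * q) hQ).Rw ∧
      (u₀ : F₀)⁻¹ ∈ (redData2QK0 A (M' * q * q) hQ).Rw)
    (hu3 : (u₀ : F₀) ∈ Rw3K0 A (M' * q * q) q ∧ (u₀ : F₀)⁻¹ ∈ Rw3K0 A (M' * q * q) q)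
    (hK : Units.map (mapK0Bar A (M' * q * q) : _ →* FK (M' * q * q)) u₀ ∈
      pDivUnits Kb (FK (M' * q * q)) m) :
    (∀ Q : Place kA (FresBar M' A),
      (m : ℤ) ∣ Q.ord (redF1U M' q A hqM hA ⟨(u₀ : F₀), hu1.1⟩ : FresBar M' A)) ∧
    (∀ Q : Place kA (FresBar M' A),
      (m : ℤ) ∣ Q.ord (redF2U M' q A hQ hqM hA ⟨(u₀ : F₀), hu2.1⟩ : FresBar M' A)) ∧
    (∀ Q : Place kA (FresBar M' A),
      (m : ℤ) ∣ Q.ord (redF3U M' q A hqM hA ⟨(u₀ : F₀), hu3.1⟩ : FresBar M' A)) := by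
  have hq : q.Prime := Fact.out
  have hu : ∀ i', (u₀ : F₀) ∈ W3 A hQ i' ∧ (u₀ : F₀)⁻¹ ∈ W3 A hQ i' := by
    intro i'
    fin_cases i'
    · exact hu1
    · exact hu2
    · exact hu3
  have hj := @hufdj
  have hji := @hufdji
  refine ⟨fun Q => ?_, fun Q => ?_, fun Q => ?_⟩
  · exact dvd_ord_of_W3 A M' hq hqM hA hQ hj hji (0 : Fin 3)
      (redF1U M' q A hqM hA) (redF1U_eq_zero_iff M' q A hqM hA) Q
      (fun a ha => redF1U_algebraMap_mem M' q A hQ hqM hA Q a ha) hm u₀ hu hK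
  · exact dvd_ord_of_W3 A M' hq hqM hA hQ hj hji (1 : Fin 3)
      (redF2U M' q A hQ hqM hA) (redF2U_eq_zero_iff M' q A hQ hqM hA) Q
      (fun a ha => redF2U_algebraMap_mem M' q A hQ hqM hA Q a ha) hm u₀ hu hK
  · exact dvd_ord_of_W3 A M' hq hqM hA hQ hj hji (2 : Fin 3)
      (redF3U M' q A hqM hA) (redF3U_eq_zero_iff M' q A hqM hA) Q
      (fun a ha => redF3U_algebraMap_mem M' q A hQ hqM hA Q a ha) hm u₀ hu hK

end Node

end Fermat.Agent.GE8.SQ.Node3
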