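/-
GATE-E (S59) / block E8 / node E8.SQ / M2 NODE3 (helper38), file 8b: **the `ℚ̄`-level form** —
helper97's `Stmt3K.NodeHyp3K A hQ m` from `Main.node3_K0` (the two factoriality statements still
binders `hufdj hufdji`, plugged in `Final.lean`).

An `I_A`-fixed unit is `K₀`-rational (helper80 `RatLiftK0.exists_mapK0Bar_of_fixed`); places of
`FresBar (M' q q) A` = places of `FresBar M' A` (helper39 `ResBarTop.FresBar_top_eq`); third conjunct
`(D3)` with `ub := redF3U u₀` (helper15 `qExpand_redF3U` + `rhoK3_apply`).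
-/
import Fermat.Agent.GE8.SQ.Node3.Main

set_option autoImplicit false
set_option linter.unusedSectionVars false
set_option linter.unusedVariables false
set_option linter.style.haveILetI false

noncomputable section

namespace Fermat.Agent.GE8.SQ.Node3

open AlgebraicCurve ModularCurve IsLocalRing HahnSeries
open Fermat.Agent.S24
open Fermat.Agent.GJ Fermat.Agent.GJ.KumGroup Fermat.Agent.GJ.Kum.KumType
open Fermat.Agent.GJ.J1 Fermat.Agent.GJ.J1.Val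
open Fermat.Agent.GK.AL Fermat.Agent.GL.AL
open Fermat.Agent.GK.UqKronecker
open Fermat.Agent.GL.Val.GaussK0 Fermat.Agent.GL.Val.SecondK0 Fermat.Agent.GL.Val.SecondK0Hall
open Fermat.Agent.GL.Val.ThirdK0 Fermat.Agent.GL.Val.OrthK0 Fermat.Agent.GL.Val.L1eAsmK0
open Fermat.Agent.GL.Table.K0
open Fermat.Agent.GL.CuspVal Fermat.Agent.GL.W3
open Fermat.Agent.GL.OldTriplesK0 Fermat.Agent.GL.RedInC Fermat.Agent.GL.RedInCThm
open Fermat.Agent.GL.Frame.Inst Fermat.Agent.GL.Final.H5Hallji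
open Fermat.Agent.GL.Final.GeomGate
open Fermat.Agent.GB.A
open Fermat.Agent.GE8.SQ.Stmt Fermat.Agent.GE8.SQ.Stmt3 Fermat.Agent.GE8.SQ.Stmt3K
open Fermat.Agent.Common_helper32

/-! ### places of equal intermediate fields -/

section Transport

variable {k L : Type*} [Field k] [Field L] [Algebra k L]

/-- divisibility of all orders transports along an equality of intermediate fields. -/
theorem dvd_ord_of_intermediateField_eq {E1 E2 : IntermediateField k L} (e : E1 = E2) (m : ℤ)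
    (x : E1) (y : E2) (hxy : (x : L) = (y : L))
    (h : ∀ Q' : Place k E2, m ∣ Q'.ord y) : ∀ Q : Place k E1, m ∣ Q.ord x := by
  subst e
  have hx : x = y := Subtype.ext hxy
  subst hx
  exact h

end Transport

section Qbar

variable {M' q : ℕ} [NeZero M'] [Fact q.Prime] (A : ValuationSubring Kb)

local notation "𝕜" => ResidueField A
local notation "F₀" => modularFunctionFieldFullC (K0 A) (M' * q * q)
local notation "Bj" => chartRing (R0 A) (jK0 A (M' * q * q))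
local notation "Bji" => chartRing (R0 A) (jK0 A (M' * q * q))⁻¹

/-! ### the `ℚ̄`-level reductions of a `K₀`-rational unit (kernel-friendly: lemma chains only) -/

theorem coe_redUnit₁_eq (hQ : HallDvd (q ^ 2) (M' * q * q)) {u : (FK (M' * q * q))ˣ}
    (hu : IsU3 (M' * q) q A hQ u) :
    ((redUnit₁ hu : (FresBar (M' * q * q) A)ˣ) : FresBar (M' * q * q) A) =
      (redDataBar (M' * q * q) A).red ⟨(u : FK (M' * q * q)), hu.1.1⟩ := rfl

theorem coe_redUnit₂_eq (hQ : HallDvd (q ^ 2) (M' * q * q)) {u : (FK (M' * q * q))ˣ}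
    (hu : IsU3 (M' * q) q A hQ u) :
    ((redUnit₂ hu : (FresBar (M' * q * q) A)ˣ) : FresBar (M' * q * q) A) =
      (redData2Q (M' * q * q) A hQ).red ⟨(u : FK (M' * q * q)), hu.2.1.1⟩ := rfl

theorem coe_redUnit₁_eq_redF1U (hqM : ¬ q ∣ M') (hA : A.LiesOverPrime q)
    (hQ : HallDvd (q ^ 2) (M' * q * q))
    {u : (FK (M' * q * q))ˣ} (hu : IsU3 (M' * q) q A hQ u) (u₀ : F₀ˣ)
    (hu1 : (u₀ : F₀) ∈ RwK0 A (M' * q * q))
    (hmap : mapK0Bar A (M' * q * q) (u₀ : F₀) = ((u : (FK (M' * q * q))ˣ) : FK (M' * q * q))) :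
    ((((redUnit₁ hu : (FresBar (M' * q * q) A)ˣ) : FresBar (M' * q * q) A)) : LaurentSeries 𝕜) =
      ((redF1U M' q A hqM hA ⟨(u₀ : F₀), hu1⟩ : FresBar M' A) : LaurentSeries 𝕜) := by
  have e0 : (⟨mapK0Bar A (M' * q * q) (u₀ : F₀),
      (mem_Rw1K0_iff A (M' * q * q) _).1 hu1⟩ : (redDataBar (M' * q * q) A).Rw) =
      ⟨((u : (FK (M' * q * q))ˣ) : FK (M' * q * q)), hu.1.1⟩ := Subtype.ext hmap
  exact Eq.trans (congrArg Subtype.val (coe_redUnit₁_eq A hQ hu))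
    (Eq.trans (congrArg (fun z => (((redDataBar (M' * q * q) A).red z : FresBar (M' * q * q) A) :
      LaurentSeries 𝕜)) e0.symm)
    (Eq.trans (rhoK1_apply M' q A ⟨(u₀ : F₀), hu1⟩).symm
      (coe_redF1U M' q A hqM hA ⟨(u₀ : F₀), hu1⟩).symm))

theorem coe_redUnit₂_eq_redF2U (hqM : ¬ q ∣ M') (hA : A.LiesOverPrime q)
    (hQ : HallDvd (q ^ 2) (M' * q * q))
    {u : (FK (M' * q * q))ˣ} (hu : IsU3 (M' * q) q A hQ u) (u₀ : F₀ˣ)
    (hu2 : (u₀ : F₀) ∈ (redData2QK0 A (M' * q * q) hQ).Rw)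
    (hmap : mapK0Bar A (M' * q * q) (u₀ : F₀) = ((u : (FK (M' * q * q))ˣ) : FK (M' * q * q))) :
    ((((redUnit₂ hu : (FresBar (M' * q * q) A)ˣ) : FresBar (M' * q * q) A)) : LaurentSeries 𝕜) =
      ((redF2U M' q A hQ hqM hA ⟨(u₀ : F₀), hu2⟩ : FresBar M' A) : LaurentSeries 𝕜) := by
  have e0 : (⟨mapK0Bar A (M' * q * q) (u₀ : F₀),
      (mem_Rw2QK0_iff A (M' * q * q) hQ _).1 hu2⟩ : (redData2Q (M' * q * q) A hQ).Rw) =
      ⟨((u : (FK (M' * q * q))ˣ) : FK (M' * q * q)), hu.2.1.1⟩ := Subtype.ext hmap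
  exact Eq.trans (congrArg Subtype.val (coe_redUnit₂_eq A hQ hu))
    (Eq.trans (congrArg (fun z => (((redData2Q (M' * q * q) A hQ).red z :
      FresBar (M' * q * q) A) : LaurentSeries 𝕜)) e0.symm)
    (Eq.trans (rhoK2_apply M' q A hQ ⟨(u₀ : F₀), hu2⟩).symm
      (coe_redF2U M' q A hQ hqM hA ⟨(u₀ : F₀), hu2⟩).symm))

theorem red3Ser_eq_qExpand_redF3U (hqM : ¬ q ∣ M') (hA : A.LiesOverPrime q)
    (hQ : HallDvd (q ^ 2) (M' * q * q))
    {u : (FK (M' * q * q))ˣ} (hu : IsU3 (M' * q) q A hQ u) (u₀ : F₀ˣ)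
    (hu3 : (u₀ : F₀) ∈ Rw3K0 A (M' * q * q) q)
    (hmap : mapK0Bar A (M' * q * q) (u₀ : F₀) = ((u : (FK (M' * q * q))ˣ) : FK (M' * q * q))) :
    red3Ser A u hu.2.2.1 =
      qExpand 𝕜 (M' * q * q)
        ((redF3U M' q A hqM hA ⟨(u₀ : F₀), hu3⟩ : FresBar M' A) : LaurentSeries 𝕜) := by
  have e0 : (⟨mapK0Bar A (M' * q * q) (u₀ : F₀),
      (Fermat.Agent.GL.Table.K0.mem_Rw3K0_iff_mapK0Bar A (M' * q * q) _).1 hu3⟩ :
      (redData3 (M' * q * q) A q).Rw) =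
      ⟨((u : (FK (M' * q * q))ˣ) : FK (M' * q * q)), hu.2.2.1⟩ := Subtype.ext hmap
  exact Eq.trans (congrArg (fun z => (((redData3 (M' * q * q) A q).red z :
      FresCusp (M' * q * q) A (cusp3 (M' * q * q) q)) : LaurentSeries 𝕜)) e0.symm)
    (Eq.trans (rhoK3_apply M' q A ⟨(u₀ : F₀), hu3⟩).symm
      (qExpand_redF3U M' q A hqM hA ⟨(u₀ : F₀), hu3⟩).symm)

set_option synthInstance.maxHeartbeats 400000 in
/-- **(M2 NODE3), helper97's corrected spelling `Stmt3K.NodeHyp3K`**, level `M' q q` literal, ANY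
modulus `m ≠ 0`; the two factoriality statements as binders. -/
theorem nodeHyp3K_of (hqM : ¬ q ∣ M') (hA : A.LiesOverPrime q)
    (hQ : HallDvd (q ^ 2) (M' * q * q))
    (hufdj : ∀ [IsFractionRing Bj F₀] [IsNoetherianRing Bj] [IsIntegrallyClosed Bj]
      (𝔫 : Ideal Bj) [𝔫.IsPrime], 𝔫.IsMaximal → baseB (jK0 A (M' * q * q)) (q0 A q) ∈ 𝔫 →
      UniqueFactorizationMonoid (Localization.AtPrime 𝔫))
    (hufdji : ∀ [IsFractionRing Bji F₀] [IsNoetherianRing Bji] [IsIntegrallyClosed Bji]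
      (𝔫 : Ideal Bji) [𝔫.IsPrime], 𝔫.IsMaximal →
      (isChartRing_Bji A M').toRingHom (q0 A q) ∈ 𝔫 → (isChartRing_Bji A M').gen ∈ 𝔫 →
      UniqueFactorizationMonoid (Localization.AtPrime 𝔫))
    {m : ℕ} (hm : m ≠ 0) : NodeHyp3K (M' := M') (q := q) A hQ m := by
  have hq : q.Prime := Fact.out
  intro u hfix hu
  -- `u` is `K₀`-rational
  obtain ⟨x0, hx0⟩ := Fermat.Agent.GL.RatLiftK0.exists_mapK0Bar_of_fixed A (M' * q * q)
    ((u : (FK (M' * q * q))ˣ) : FK (M' * q * q)) (fun σ hσ => by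
      have := congrArg (fun v : (FK (M' * q * q))ˣ => (v : FK (M' * q * q))) (hfix σ hσ)
      exact this)
  have hx00 : x0 ≠ 0 := by
    intro h0
    rw [h0, map_zero] at hx0
    exact (u : (FK (M' * q * q))ˣ).ne_zero hx0.symm
  let u₀ : F₀ˣ := Units.mk0 x0 hx00
  have hmap : mapK0Bar A (M' * q * q) (u₀ : F₀) =
      ((u : (FK (M' * q * q))ˣ) : FK (M' * q * q)) := hx0
  have hmapi : mapK0Bar A (M' * q * q) ((u₀ : F₀)⁻¹) =
      (((u : (FK (M' * q * q))ˣ)⁻¹ : (FK (M' * q * q))ˣ) : FK (M' * q * q)) := by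
    rw [map_inv₀, hmap, Units.val_inv_eq_inv_val]
  have hu1 : (u₀ : F₀) ∈ RwK0 A (M' * q * q) ∧ (u₀ : F₀)⁻¹ ∈ RwK0 A (M' * q * q) := by
    refine ⟨?_, ?_⟩
    · rw [mem_Rw1K0_iff, hmap]; exact hu.1.1
    · rw [mem_Rw1K0_iff, hmapi]; exact hu.1.2
  have hu2 : (u₀ : F₀) ∈ (redData2QK0 A (M' * q * q) hQ).Rw ∧
      (u₀ : F₀)⁻¹ ∈ (redData2QK0 A (M' * q * q) hQ).Rw := by
    refine ⟨?_, ?_⟩
    · rw [mem_Rw2QK0_iff, hmap]; exact hu.2.1.1
    · rw [mem_Rw2QK0_iff, hmapi]; exact hu.2.1.2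
  have hu3 : (u₀ : F₀) ∈ Rw3K0 A (M' * q * q) q ∧ (u₀ : F₀)⁻¹ ∈ Rw3K0 A (M' * q * q) q := by
    refine ⟨?_, ?_⟩
    · rw [Fermat.Agent.GL.Table.K0.mem_Rw3K0_iff_mapK0Bar, hmap]; exact hu.2.2.1
    · rw [Fermat.Agent.GL.Table.K0.mem_Rw3K0_iff_mapK0Bar, hmapi]; exact hu.2.2.2
  have hK : Units.map (mapK0Bar A (M' * q * q) : _ →* FK (M' * q * q)) u₀ ∈
      pDivUnits Kb (FK (M' * q * q)) m := by
    have e : Units.map (mapK0Bar A (M' * q * q) : _ →* FK (M' * q * q)) u₀ =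
        (u : (FK (M' * q * q))ˣ) := Units.ext hmap
    rw [e]
    exact u.2
  obtain ⟨n1, n2, n3⟩ := node3_K0 A M' hqM hA hQ hufdj hufdji hm u₀ hu1 hu2 hu3 hK
  have htop : FresBar (M' * q * q) A = FresBar M' A :=
    Fermat.Agent.GE8.SQ.ResBarTop.FresBar_top_eq M' A hq hqM hA
  refine ⟨?_, ?_, ?_⟩
  · -- first component
    exact dvd_ord_of_intermediateField_eq htop (m : ℤ) _ _
      (coe_redUnit₁_eq_redF1U A hqM hA hQ hu u₀ hu1.1 hmap) n1
  · -- second component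
    exact dvd_ord_of_intermediateField_eq htop (m : ℤ) _ _
      (coe_redUnit₂_eq_redF2U A hqM hA hQ hu u₀ hu2.1 hmap) n2
  · -- third component, in the copy
    refine ⟨redF3U M' q A hqM hA ⟨(u₀ : F₀), hu3.1⟩, ?_, n3,
      red3Ser_eq_qExpand_redF3U A hqM hA hQ hu u₀ hu3.1 hmap⟩
    rw [Ne, redF3U_eq_zero_iff]
    intro hnon
    rw [ValuationSubring.mem_nonunits_iff_or] at hnon
    rcases hnon with h0 | h0
    · exact u₀.ne_zero h0
    · exact h0 hu3.2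

end Qbar

end Fermat.Agent.GE8.SQ.Node3
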